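import Fermat.Agent.MU.S56.W4.C.TR.Defs
import Fermat.Agent.MU.Lib.FFL.Unr
import Fermat.Agent.MU.Lib.FFL.FB.FieldRoot

section MergeWrap_S56_W4_C_TR_Val -- from S56/W4/C/TR/Val.lean

set_option autoImplicit false

namespace Fermat.Agent.S56.SS

open Fermat.Agent.FFL

local notation "Kb" => AlgebraicClosure ℚ
local notation "GK" => (AlgebraicClosure ℚ ≃ₐ[ℚ] AlgebraicClosure ℚ)

/-- Inertia is contained in the decomposition group. -/
lemma valOrbit_inertia_le_decomp (P : ValuationSubring Kb) {σ : GK}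
    (hσ : σ ∈ P.inertiaSubgroupIn ℚ) : σ ∈ P.decompositionSubgroup ℚ := by
  obtain ⟨d, -, rfl⟩ := hσ
  exact d.2

/-- **VAL**. -/
theorem valOrbitProp (p : ℕ) (P : ValuationSubring Kb) : ValOrbitProp p P := by
  classical
  intro hp hP y T m hy hT hcard hm
  -- the inertia orbit of `y`
  set T₀ : Finset Kb := T.filter (fun t => ∃ σ ∈ P.inertiaSubgroupIn ℚ, σ y = t) with hT₀
  have hmem : ∀ t, t ∈ T₀ ↔ ∃ σ ∈ P.inertiaSubgroupIn ℚ, σ y = t := by
    intro t
    rw [hT₀, Finset.mem_filter]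
    constructor
    · exact fun h => h.2
    · rintro ⟨σ, hσ, rfl⟩
      exact ⟨hT σ hσ, σ, hσ, rfl⟩
  have hyT₀ : y ∈ T₀ := (hmem y).2 ⟨1, Subgroup.one_mem _, rfl⟩
  have hval : ∀ t ∈ T₀, P.valuation t = P.valuation y := by
    intro t ht
    obtain ⟨σ, hσ, rfl⟩ := (hmem t).1 ht
    exact FB.val_decomp (valOrbit_inertia_le_decomp P hσ) y
  -- its product
  set N : Kb := ∏ t ∈ T₀, t with hN
  have hNval : P.valuation N = P.valuation y ^ T₀.card := by
    rw [hN, map_prod, Finset.prod_congr rfl hval, Finset.prod_const]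
  have hvy : P.valuation y < 1 := (ValuationSubring.mem_nonunits_iff P).1 hy
  have hcard0 : 0 < T₀.card := Finset.card_pos.2 ⟨y, hyT₀⟩
  have hNnon : N ∈ P.nonunits := by
    rw [ValuationSubring.mem_nonunits_iff, hNval]
    exact pow_lt_one₀ zero_le hvy hcard0.ne'
  have hNfix : ∀ σ ∈ P.inertiaSubgroupIn ℚ, σ N = N := by
    intro σ hσ
    have himg : T₀.image σ = T₀ := by
      apply Finset.eq_of_subset_of_card_le
      · intro t ht
        obtain ⟨s, hs, rfl⟩ := Finset.mem_image.1 ht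
        obtain ⟨τ, hτ, rfl⟩ := (hmem s).1 hs
        exact (hmem _).2 ⟨σ * τ, Subgroup.mul_mem _ hσ hτ, rfl⟩
      · rw [Finset.card_image_of_injective _ σ.injective]
    rw [hN, map_prod]
    conv_rhs => rw [← himg]
    rw [Finset.prod_image (fun a _ b _ h => σ.injective h)]
  have hNp : N / (p : Kb) ∈ P := unrProp p hp P hP N hNnon hNfix
  -- conclusion
  show y ^ m / (p : Kb) ^ 1 ∈ P
  rw [pow_one]
  rw [← ValuationSubring.valuation_le_one_iff] at hNp ⊢
  rw [map_div₀, map_pow]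
  rw [map_div₀, hNval] at hNp
  have hle : P.valuation y ^ m ≤ P.valuation y ^ T₀.card :=
    pow_le_pow_of_le_one zero_le hvy.le
      ((Finset.card_le_card (Finset.filter_subset _ _)).trans hcard)
  refine le_trans ?_ hNp
  rw [div_eq_mul_inv, div_eq_mul_inv]
  gcongr
end Fermat.Agent.S56.SS
end MergeWrap_S56_W4_C_TR_Val
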