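import Mathlib
import Fermat.Agent.MU.Lib.FFL.Defs
import Fermat.Agent.MU.S56.W4.C.TR.Defs
import Fermat.Agent.MU.S56.W4.C.D.Defs
import Fermat.Agent.S56.W3.SO.Place
import Fermat.Agent.MU.E.Desc.FlatAsmK
import Fermat.Agent.MU.Lib.FFL.Red
import Fermat.Agent.MU.S56.W4.C.D.Basis
import Fermat.Agent.MU.Lib.FFL.Base
import Fermat.Agent.MU.Lib.FFL.Arith
import Fermat.Agent.MU.Lib.FFL.Unr
import Fermat.Agent.MU.S56.W4.C.TR.Val
import Fermat.Agent.MU.S56.W4.C.D.Red
import Fermat.Agent.MU.S56.W4.C.D.Final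

section MergeWrap_Lib_FFL_FB_Transl -- from Lib/FFL/FB/Transl.lean

set_option autoImplicit false

namespace Fermat.Agent.FFL.TR

open Fermat.Agent.FFL Polynomial

variable {L : Type*} [Field L] {W : Type*} [AddCommGroup W]

/-! ### Valuation arithmetic -/

theorem mul_mem_nonunits (P : ValuationSubring L) {c y : L} (hc : c ∈ P.nonunits)
    (hy : y ∈ P) : c * y ∈ P.nonunits := by
  rw [ValuationSubring.mem_nonunits_iff] at hc ⊢
  rw [← ValuationSubring.valuation_le_one_iff] at hy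
  rw [map_mul]
  calc P.valuation c * P.valuation y ≤ P.valuation c * 1 := by gcongr
    _ = P.valuation c := mul_one _
    _ < 1 := hc

theorem sum_mem_nonunits (P : ValuationSubring L) {ι : Type*} (s : Finset ι) (f : ι → L)
    (hf : ∀ i ∈ s, f i ∈ P.nonunits) : ∑ i ∈ s, f i ∈ P.nonunits := by
  rw [ValuationSubring.mem_nonunits_iff]
  exact P.valuation.map_sum_lt one_ne_zero
    (fun i hi => (ValuationSubring.mem_nonunits_iff P).1 (hf i hi))

/-- `x` is a unit of `P`: it lies in `P` and is not a nonunit. -/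
def IsUnitOf (P : ValuationSubring L) (x : L) : Prop := x ∈ P ∧ x ∉ P.nonunits

theorem isUnitOf_iff (P : ValuationSubring L) (x : L) :
    IsUnitOf P x ↔ P.valuation x = 1 := by
  unfold IsUnitOf
  rw [ValuationSubring.mem_nonunits_iff, ← ValuationSubring.valuation_le_one_iff, not_lt]
  exact ⟨fun h => le_antisymm h.1 h.2, fun h => ⟨h.le, h.ge⟩⟩

theorem IsUnitOf.add_nonunit {P : ValuationSubring L} {u m : L} (hu : IsUnitOf P u)
    (hm : m ∈ P.nonunits) : IsUnitOf P (u + m) := by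
  rw [isUnitOf_iff] at hu ⊢
  rw [ValuationSubring.mem_nonunits_iff] at hm
  rw [Valuation.map_add_eq_of_lt_left _ (by rw [hu]; exact hm), hu]

theorem IsUnitOf.mul {P : ValuationSubring L} {u u' : L} (hu : IsUnitOf P u)
    (hu' : IsUnitOf P u') : IsUnitOf P (u * u') := by
  rw [isUnitOf_iff] at hu hu' ⊢
  rw [map_mul, hu, hu', mul_one]

theorem isUnitOf_one (P : ValuationSubring L) : IsUnitOf P 1 := by
  rw [isUnitOf_iff, map_one]

theorem isUnitOf_prod (P : ValuationSubring L) {ι : Type*} (s : Finset ι) (f : ι → L)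
    (hf : ∀ i ∈ s, IsUnitOf P (f i)) : IsUnitOf P (∏ i ∈ s, f i) := by
  classical
  induction s using Finset.induction_on with
  | empty => simpa using isUnitOf_one P
  | insert i s hi ih =>
    rw [Finset.prod_insert hi]
    exact (hf i (Finset.mem_insert_self _ _)).mul
      (ih fun j hj => hf j (Finset.mem_insert_of_mem hj))

/-! ### The translation formula -/

/-- **(TR)** the translation formula. -/
theorem tr_formula (P : ValuationSubring L) {B : Set (W → L)} (hB : ComulClosed B)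
    {w : W} (hw : ∀ f ∈ B, f w - f 0 ∈ P.nonunits) (a : W) {X : W → L} (hX : X ∈ B) :
    ∃ (n : ℕ) (c : Fin n → L) (Y : Fin n → (W → L)), (∀ i, c i ∈ P.nonunits) ∧ (∀ i, Y i ∈ B) ∧
      X (w + a) - X w - (X a - X 0) = ∑ i, c i * (Y i a - Y i 0) := by
  obtain ⟨n, g, h, hg, hh, hf⟩ := hB X hX
  refine ⟨n, fun i => g i w - g i 0, h, fun i => hw _ (hg i), hh, ?_⟩
  have h1 : X (w + a) = ∑ i, g i w * h i a := hf w a
  have h2 : X w = ∑ i, g i w * h i 0 := by
    have := hf w 0
    rwa [add_zero] at this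
  have h3 : X a = ∑ i, g i 0 * h i a := by
    have := hf 0 a
    rwa [zero_add] at this
  have h4 : X 0 = ∑ i, g i 0 * h i 0 := by
    have := hf 0 0
    rwa [add_zero] at this
  rw [h1, h2, h3, h4, ← Finset.sum_sub_distrib, ← Finset.sum_sub_distrib,
    ← Finset.sum_sub_distrib]
  refine Finset.sum_congr rfl fun i _ => ?_
  ring

/-- **(TR)** for `L = ℚ̄` and a point of `redKer`. -/
theorem tr_formula_redKer (P : ValuationSubring (AlgebraicClosure ℚ))
    {B : Set (W → AlgebraicClosure ℚ)} (hB : ComulClosed B)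
    {w : W} (hw : w ∈ redKer P B) (a : W) {X : W → AlgebraicClosure ℚ} (hX : X ∈ B) :
    ∃ (n : ℕ) (c : Fin n → AlgebraicClosure ℚ) (Y : Fin n → (W → AlgebraicClosure ℚ)),
      (∀ i, c i ∈ P.nonunits) ∧ (∀ i, Y i ∈ B) ∧
      X (w + a) - X w - (X a - X 0) = ∑ i, c i * (Y i a - Y i 0) :=
  tr_formula P hB hw a hX

/-- **(SHARP)**: if `π` divides all `Y a - Y 0` and `(Z a - Z 0) / π` is a unit, then
`(Z (w + a) - Z w) / π` is a unit, for every point `w` of the kernel of reduction. -/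
theorem sharp (P : ValuationSubring L) {B : Set (W → L)} (hB : ComulClosed B)
    {w a : W} (hw : ∀ f ∈ B, f w - f 0 ∈ P.nonunits) {π : L}
    (hY : ∀ Y ∈ B, (Y a - Y 0) / π ∈ P) {Z : W → L} (hZ : Z ∈ B)
    (hZa : IsUnitOf P ((Z a - Z 0) / π)) :
    IsUnitOf P ((Z (w + a) - Z w) / π) := by
  obtain ⟨n, c, Y, hc, hYB, h⟩ := tr_formula P hB hw a hZ
  have h' : (Z (w + a) - Z w) / π = (Z a - Z 0) / π + ∑ i, c i * ((Y i a - Y i 0) / π) := by
    have : Z (w + a) - Z w = (Z a - Z 0) + ∑ i, c i * (Y i a - Y i 0) := by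
      rw [← h]; ring
    rw [this, add_div, Finset.sum_div]
    congr 1
    refine Finset.sum_congr rfl fun i _ => ?_
    rw [mul_div_assoc]
  rw [h']
  exact hZa.add_nonunit (sum_mem_nonunits P _ _ fun i _ =>
    mul_mem_nonunits P (hc i) (hY _ (hYB i)))

/-! ### The norm trick -/

/-- The `j`-th elementary symmetric function of the values `Z (u + s)`, `s ∈ S`. -/
noncomputable def esymmFun (Z : W → L) (S : Finset W) (j : ℕ) (u : W) : L :=
  (S.val.map fun s => Z (u + s)).esymm j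

theorem esymmFun_zero (Z : W → L) (S : Finset W) (u : W) : esymmFun Z S 0 u = 1 := by
  unfold esymmFun
  simp [Multiset.esymm]

/-- `esymmFun Z S j` is invariant under the translations which permute `S`. -/
theorem esymmFun_add [DecidableEq W] (Z : W → L) (S : Finset W) (j : ℕ) (u s₀ : W)
    (hS : ∀ s ∈ S, s₀ + s ∈ S) : esymmFun Z S j (u + s₀) = esymmFun Z S j u := by
  unfold esymmFun
  have himg : S.image (fun s => s₀ + s) = S := by
    refine Finset.eq_of_subset_of_card_le ?_ ?_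
    · intro x hx
      obtain ⟨s, hs, rfl⟩ := Finset.mem_image.1 hx
      exact hS s hs
    · rw [Finset.card_image_of_injective _ (add_right_injective s₀)]
  have hval : S.val = S.val.map (fun s => s₀ + s) := by
    conv_lhs => rw [← himg]
    rw [Finset.image_val_of_injOn (fun x _ y _ h => add_right_injective s₀ h)]
  conv_rhs => rw [hval]
  rw [Multiset.map_map]
  congr 1
  refine Multiset.map_congr rfl fun s _ => ?_
  simp only [Function.comp_apply, add_assoc]

/-- The polynomial identity behind the norm trick, evaluated at `t`. -/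
theorem prod_sub_eq_sum_esymmFun (Z : W → L) (S : Finset W) (u : W) (t : L) :
    ∏ s ∈ S, (t - Z (u + s)) =
      ∑ j ∈ Finset.range (S.card + 1), (-1) ^ j * (esymmFun Z S j u * t ^ (S.card - j)) := by
  have h := Multiset.prod_X_sub_X_eq_sum_esymm (S.val.map fun s => Z (u + s))
  have h2 := congrArg (Polynomial.eval t) h
  rw [Multiset.map_map, Polynomial.eval_multiset_prod, Multiset.map_map,
    Polynomial.eval_finsetSum] at h2
  simp only [Function.comp_apply, eval_sub, eval_X, eval_C, Multiset.card_map, eval_mul,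
    eval_pow, eval_neg, eval_one, Finset.card_val] at h2
  rw [Finset.prod_eq_multiset_prod]
  exact h2

/-- **(CHEAP)** the norm trick.  `S ∋ 0` a finite set of translations; for every `s ∈ S` the
point `w + s` is in the kernel of reduction, `π` divides `Y (a - s) - Y 0` for all `Y ∈ B`, and
`(Z (a - s) - Z 0) / π` is a unit.  Then some elementary symmetric function of the translates
`Z (· + s)` moves by at most `π ^ #S` (in valuation) under translation by `a`. -/
theorem cheap (P : ValuationSubring L) {B : Set (W → L)} (hB : ComulClosed B)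
    {w a : W} (S : Finset W) (h0 : (0 : W) ∈ S) {π : L} (hπ : π ≠ 0)
    (hw : ∀ s ∈ S, ∀ f ∈ B, f (w + s) - f 0 ∈ P.nonunits)
    (hY : ∀ s ∈ S, ∀ Y ∈ B, (Y (a - s) - Y 0) / π ∈ P) {Z : W → L} (hZ : Z ∈ B)
    (hZa : ∀ s ∈ S, IsUnitOf P ((Z (a - s) - Z 0) / π)) (ht : Z (w + a) ∈ P) :
    ∃ j, 1 ≤ j ∧ j ≤ S.card ∧
      (esymmFun Z S j (w + a) - esymmFun Z S j w) / π ^ S.card ∉ P.nonunits := by
  classical
  by_contra hcon
  replace hcon : ∀ j, 1 ≤ j → j ≤ S.card →
      (esymmFun Z S j (w + a) - esymmFun Z S j w) / π ^ S.card ∈ P.nonunits := by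
    intro j h1 h2
    by_contra h3
    exact hcon ⟨j, h1, h2, h3⟩
  set t : L := Z (w + a) with ht_def
  -- the left side is a unit times `π ^ #S`
  have hfac : ∀ s ∈ S, IsUnitOf P ((t - Z (w + s)) / π) := by
    intro s hs
    have := sharp P hB (w := w + s) (a := a - s) (hw s hs) (hY s hs) hZ (hZa s hs)
    have e : w + s + (a - s) = w + a := by abel
    rwa [e] at this
  have hL : IsUnitOf P ((∏ s ∈ S, (t - Z (w + s))) / π ^ S.card) := by
    have : (∏ s ∈ S, (t - Z (w + s))) / π ^ S.card = ∏ s ∈ S, ((t - Z (w + s)) / π) := by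
      rw [Finset.prod_div_distrib, Finset.prod_const]
    rw [this]
    exact isUnitOf_prod P S _ hfac
  -- the product for `w + a` vanishes
  have hzero : ∏ s ∈ S, (t - Z (w + a + s)) = 0 :=
    Finset.prod_eq_zero h0 (by rw [add_zero]; exact sub_self _)
  have e1 := prod_sub_eq_sum_esymmFun Z S w t
  have e2 := prod_sub_eq_sum_esymmFun Z S (w + a) t
  rw [hzero] at e2
  have e3 : ∏ s ∈ S, (t - Z (w + s)) =
      ∑ j ∈ Finset.range (S.card + 1),
        (-1) ^ (j + 1) * ((esymmFun Z S j (w + a) - esymmFun Z S j w) * t ^ (S.card - j)) := by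
    have : ∏ s ∈ S, (t - Z (w + s)) = ∏ s ∈ S, (t - Z (w + s)) - 0 := (sub_zero _).symm
    rw [this, e1, e2, ← Finset.sum_sub_distrib]
    refine Finset.sum_congr rfl fun j _ => ?_
    ring
  have hR : (∏ s ∈ S, (t - Z (w + s))) / π ^ S.card ∈ P.nonunits := by
    rw [e3, Finset.sum_div]
    refine sum_mem_nonunits P _ _ fun j hj => ?_
    rcases Nat.eq_zero_or_pos j with hj0 | hjpos
    · subst hj0
      rw [esymmFun_zero, esymmFun_zero, sub_self, zero_mul, mul_zero, zero_div]
      exact (ValuationSubring.mem_nonunits_iff P).2 (by rw [map_zero]; exact zero_lt_one)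
    · have hjle : j ≤ S.card := Nat.lt_succ_iff.1 (Finset.mem_range.1 hj)
      have hmem := hcon j hjpos hjle
      have e : (-1) ^ (j + 1) * ((esymmFun Z S j (w + a) - esymmFun Z S j w) * t ^ (S.card - j))
          / π ^ S.card = (esymmFun Z S j (w + a) - esymmFun Z S j w) / π ^ S.card *
            ((-1) ^ (j + 1) * t ^ (S.card - j)) := by
        field_simp
      rw [e]
      refine mul_mem_nonunits P hmem (P.mul_mem _ _ ?_ (P.pow_mem ht _))
      exact P.pow_mem (P.neg_mem _ P.one_mem) _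
  exact hL.2 hR

end Fermat.Agent.FFL.TR
end MergeWrap_Lib_FFL_FB_Transl

section MergeWrap_S56_W4_C_TR_Core -- from S56/W4/C/TR/Core.lean

set_option autoImplicit false

namespace Fermat.Agent.S56.SS

variable {k : Type} [Field k]

/-- The ring of multipliers of an additive subgroup. -/
def stabRing (S : AddSubgroup k) : Subring k where
  carrier := {x | ∀ z ∈ S, x * z ∈ S}
  mul_mem' := fun {a b} ha hb z hz => by rw [mul_assoc]; exact ha _ (hb z hz)
  one_mem' := fun z hz => by rwa [one_mul]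
  add_mem' := fun {a b} ha hb z hz => by rw [add_mul]; exact S.add_mem (ha z hz) (hb z hz)
  zero_mem' := fun z _ => by rw [zero_mul]; exact S.zero_mem
  neg_mem' := fun {a} ha z hz => by rw [neg_mul]; exact S.neg_mem (ha z hz)

theorem mem_stabRing {S : AddSubgroup k} {x : k} : x ∈ stabRing S ↔ ∀ z ∈ S, x * z ∈ S :=
  Iff.rfl

/-- In a finite field the multiplier ring is a field. -/
theorem trc_inv_mem_stabRing [Finite k] {S : AddSubgroup k} {d : k} (hd : d ∈ stabRing S)
    (hd0 : d ≠ 0) : d⁻¹ ∈ stabRing S := by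
  have hpos : 0 < orderOf (Units.mk0 d hd0) := orderOf_pos _
  have h1 : (Units.mk0 d hd0) ^ orderOf (Units.mk0 d hd0) = 1 := pow_orderOf_eq_one _
  have h2 : d ^ orderOf (Units.mk0 d hd0) = 1 := by
    have h := congrArg (fun x : kˣ => (x : k)) h1
    simp only [Units.val_pow_eq_pow_val, Units.val_mk0, Units.val_one] at h
    exact h
  have h3 : d⁻¹ = d ^ (orderOf (Units.mk0 d hd0) - 1) := by
    have h4 : d * d ^ (orderOf (Units.mk0 d hd0) - 1) = 1 := by
      rw [← pow_succ', Nat.sub_add_cancel hpos, h2]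
    exact (eq_inv_of_mul_eq_one_right h4).symm
  rw [h3]
  exact pow_mem hd _

/-- The elements `0, 1, u, …, u^(q-2)`. -/
def powFam (u : k) (q : ℕ) (a : Fin q) : k :=
  if (a : ℕ) = 0 then 0 else u ^ ((a : ℕ) - 1)

theorem trc_powFam_mem (u : k) (q : ℕ) {S : AddSubgroup k} (hS : ∀ z ∈ S, u * z ∈ S)
    (a : Fin q) : powFam u q a ∈ stabRing S := by
  unfold powFam
  split_ifs
  · exact (stabRing S).zero_mem
  · exact pow_mem (mem_stabRing.2 hS) _

theorem trc_powFam_injective (u : k) (q : ℕ) (hu0 : u ≠ 0)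
    (hord : ∀ n : ℕ, 0 < n → u ^ n = 1 → q - 1 ≤ n) : Function.Injective (powFam u q) := by
  have key : ∀ m n : ℕ, m < n → n < q - 1 → u ^ m ≠ u ^ n := by
    intro m n hmn hn h
    have h1 : u ^ n = u ^ m * u ^ (n - m) := by rw [← pow_add]; congr 1; omega
    rw [h1] at h
    have h2 : u ^ (n - m) = 1 := by
      have hm0 : u ^ m ≠ 0 := pow_ne_zero _ hu0
      exact mul_left_cancel₀ hm0 (by rw [← h, mul_one])
    have := hord (n - m) (by omega) h2
    omega
  intro a b hab
  unfold powFam at hab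
  apply Fin.ext
  have ha := a.2
  have hb := b.2
  split_ifs at hab with h1 h2 h2
  · omega
  · exact absurd hab.symm (pow_ne_zero _ hu0)
  · exact absurd hab (pow_ne_zero _ hu0)
  · rcases Nat.lt_trichotomy ((a : ℕ) - 1) ((b : ℕ) - 1) with h | h | h
    · exact absurd hab (key _ _ h (by omega))
    · omega
    · exact absurd hab.symm (key _ _ h (by omega))

/-- The classes of the `powFam u q a * z` modulo `S` are pairwise distinct if `z ∉ S`. -/
theorem trc_classes_injective [Finite k] (u : k) (q : ℕ) (hu0 : u ≠ 0)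
    (hord : ∀ n : ℕ, 0 < n → u ^ n = 1 → q - 1 ≤ n) (S : AddSubgroup k)
    (hS : ∀ z ∈ S, u * z ∈ S) {z : k} (hz : z ∉ S) :
    Function.Injective (fun a : Fin q => (QuotientAddGroup.mk (powFam u q a * z) : k ⧸ S)) := by
  intro a b hab
  by_contra hne
  have hd0 : powFam u q a - powFam u q b ≠ 0 :=
    sub_ne_zero.2 (fun h => hne (trc_powFam_injective u q hu0 hord h))
  have hd : powFam u q a - powFam u q b ∈ stabRing S :=
    (stabRing S).sub_mem (trc_powFam_mem u q hS a) (trc_powFam_mem u q hS b)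
  have h1 : (powFam u q a - powFam u q b) * z ∈ S := by
    have := (QuotientAddGroup.eq (s := S)).1 hab
    have e : (powFam u q a - powFam u q b) * z = -(-(powFam u q a * z) + powFam u q b * z) := by
      ring
    rw [e]
    exact S.neg_mem this
  have h2 := trc_inv_mem_stabRing hd hd0 _ h1
  rw [← mul_assoc, inv_mul_cancel₀ hd0, one_mul] at h2
  exact hz h2

/-- A proper `u`-stable subgroup has index at least `q`. -/
theorem trc_le_index [Finite k] (u : k) (q : ℕ) (hu0 : u ≠ 0)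
    (hord : ∀ n : ℕ, 0 < n → u ^ n = 1 → q - 1 ≤ n) (S : AddSubgroup k)
    (hS : ∀ z ∈ S, u * z ∈ S) {z : k} (hz : z ∉ S) : q ≤ S.index := by
  have h := Nat.card_le_card_of_injective _ (trc_classes_injective u q hu0 hord S hS hz)
  rwa [Nat.card_fin, ← AddSubgroup.index_eq_card] at h

/-- If `S` is `u`-stable of index `q`, a `u`-stable subgroup `T ≥ S` is `S` or everything. -/
theorem trc_simple [Finite k] (u : k) (q : ℕ) (hu0 : u ≠ 0)
    (hord : ∀ n : ℕ, 0 < n → u ^ n = 1 → q - 1 ≤ n) (S : AddSubgroup k)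
    (hS : ∀ z ∈ S, u * z ∈ S) (hidx : S.index = q) (T : AddSubgroup k) (hST : S ≤ T)
    (hT : ∀ z ∈ T, u * z ∈ T) : T ≤ S ∨ T = ⊤ := by
  by_cases h : T ≤ S
  · exact Or.inl h
  right
  obtain ⟨z, hzT, hzS⟩ := SetLike.not_le_iff_exists.1 h
  have hinj := trc_classes_injective u q hu0 hord S hS hzS
  have hbij := hinj.bijective_of_nat_card_le
    (by rw [Nat.card_fin, ← AddSubgroup.index_eq_card, hidx])
  rw [eq_top_iff]
  intro y _
  obtain ⟨a, ha⟩ := hbij.2 (QuotientAddGroup.mk y)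
  have h1 : -(powFam u q a * z) + y ∈ S := (QuotientAddGroup.eq (s := S)).1 ha
  have h2 : powFam u q a * z ∈ T := trc_powFam_mem u q hT a z hzT
  have e : y = powFam u q a * z + (-(powFam u q a * z) + y) := by ring
  rw [e]
  exact T.add_mem h2 (hST h1)

/-! ### The `u`-stable core of a subgroup -/

/-- `S' ⊓ u⁻¹ S'`. -/
def coreS (u : k) (S' : AddSubgroup k) : AddSubgroup k :=
  S' ⊓ S'.comap (AddMonoidHom.mulLeft u)

theorem mem_coreS {u : k} {S' : AddSubgroup k} {z : k} :
    z ∈ coreS u S' ↔ z ∈ S' ∧ u * z ∈ S' := Iff.rfl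

theorem coreS_le (u : k) (S' : AddSubgroup k) : coreS u S' ≤ S' := inf_le_left

theorem trc_coreS_stable (u : k) (t n : ℤ) (hquad : u * u = (t : k) * u - (n : k))
    (S' : AddSubgroup k) : ∀ z ∈ coreS u S', u * z ∈ coreS u S' := by
  intro z hz
  rw [mem_coreS] at hz ⊢
  refine ⟨hz.2, ?_⟩
  have e : u * (u * z) = t • (u * z) - n • z := by
    rw [← mul_assoc, hquad, zsmul_eq_mul, zsmul_eq_mul]
    ring
  rw [e]
  exact S'.sub_mem (S'.zsmul_mem hz.2 t) (S'.zsmul_mem hz.1 n)

theorem trc_coreS_index_le [Finite k] (u : k) (hu0 : u ≠ 0) (S' : AddSubgroup k) :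
    (coreS u S').index ≤ S'.index * S'.index := by
  have hsurj : Function.Surjective (AddMonoidHom.mulLeft u : k →+ k) := fun y =>
    ⟨u⁻¹ * y, by simp [hu0]⟩
  have h1 := AddSubgroup.index_inf_le (H := S') (K := S'.comap (AddMonoidHom.mulLeft u))
  rwa [AddSubgroup.index_comap_of_surjective S' hsurj] at h1

/-- The core of a subgroup of index `p` has index `p ^ 2`. -/
theorem trc_coreS_index [Finite k] (p : ℕ) (hp : 2 ≤ p) (u : k) (hu0 : u ≠ 0)
    (hord : ∀ n : ℕ, 0 < n → u ^ n = 1 → p ^ 2 - 1 ≤ n) (t n : ℤ)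
    (hquad : u * u = (t : k) * u - (n : k)) (S' : AddSubgroup k) (hS' : S'.index = p) :
    (coreS u S').index = p ^ 2 := by
  apply le_antisymm
  · have := trc_coreS_index_le u hu0 S'
    rwa [hS', ← sq] at this
  · have hne : S' ≠ ⊤ := by
      intro h
      rw [h, AddSubgroup.index_top] at hS'
      omega
    obtain ⟨z, hz⟩ : ∃ z, z ∉ S' := by
      by_contra hcon
      exact hne (eq_top_iff.2 fun z _ => not_not.1 fun hz => hcon ⟨z, hz⟩)
    exact trc_le_index u (p ^ 2) hu0 hord (coreS u S') (trc_coreS_stable u t n hquad S')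
      (fun h => hz (coreS_le u S' h))

/-- The image of `S'` in `k ⧸ coreS` has `p` elements. -/
theorem trc_card_image [Finite k] (p : ℕ) (hp : 0 < p) (S S' : AddSubgroup k) (hSS' : S ≤ S')
    (hS : S.index = p ^ 2) (hS' : S'.index = p) :
    Nat.card (S'.map (QuotientAddGroup.mk' S)) = p := by
  have h1 : (S'.map (QuotientAddGroup.mk' S)).index = S'.index :=
    AddSubgroup.index_map_eq S' (QuotientAddGroup.mk'_surjective S)
      (by rw [QuotientAddGroup.ker_mk']; exact hSS')
  have h2 := AddSubgroup.card_mul_index (S'.map (QuotientAddGroup.mk' S))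
  rw [h1, hS', ← AddSubgroup.index_eq_card, hS, sq] at h2
  exact Nat.eq_of_mul_eq_mul_right hp h2

end Fermat.Agent.S56.SS
end MergeWrap_S56_W4_C_TR_Core

section MergeWrap_S56_W4_C_TR_Model -- from S56/W4/C/TR/Model.lean

set_option autoImplicit false

namespace Fermat.Agent.S56.SS

open Fermat.Agent.F4 ExtCitation Fermat.Agent.FFL Fermat.Agent.FlatMod

local notation "Kb" => AlgebraicClosure ℚ
local notation "GK" => (AlgebraicClosure ℚ ≃ₐ[ℚ] AlgebraicClosure ℚ)

variable {p : ℕ} [Fact p.Prime] {k : Type} [Field k] {ρbar : ResidualGaloisRep k}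

/-! ### Part A: the characters -/

/-- The character of inertia on the line `k · b i`. -/
def psiI (s : SSStruct p ρbar) (i : Fin 2) (σ : GK) : k :=
  if i = 0 then s.ψ σ else (s.ψ σ) ^ p

theorem trm_diag (s : SSStruct p ρbar) (i : Fin 2) {σ : GK} (hσ : σ ∈ Ip p) :
    ρbar.ρ σ (s.b i) = psiI s i σ • s.b i := by
  unfold psiI
  fin_cases i
  · simpa using s.diag0 σ hσ
  · simpa using s.diag1 σ hσ

theorem trm_psi_mul (s : SSStruct p ρbar) {σ τ : GK} (hσ : σ ∈ Ip p) (hτ : τ ∈ Ip p) :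
    s.ψ (σ * τ) = s.ψ σ * s.ψ τ := by
  have h1 := s.diag0 (σ * τ) (mul_mem hσ hτ)
  rw [map_mul, Module.End.mul_apply, s.diag0 τ hτ, map_smul, s.diag0 σ hσ, smul_smul] at h1
  have h2 : (s.ψ τ * s.ψ σ - s.ψ (σ * τ)) • s.b 0 = 0 := by
    rw [sub_smul, h1, sub_self]
  rcases smul_eq_zero.1 h2 with h | h
  · rw [mul_comm, ← sub_eq_zero.1 h]
  · exact absurd h (s.b.ne_zero 0)

theorem trm_psi_one (s : SSStruct p ρbar) : s.ψ 1 = 1 := by
  have h1 := s.diag0 1 (one_mem _)
  rw [map_one, Module.End.one_apply] at h1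
  have h2 : (1 - s.ψ 1) • s.b 0 = 0 := by
    rw [sub_smul, one_smul, ← h1, sub_self]
  rcases smul_eq_zero.1 h2 with h | h
  · exact (sub_eq_zero.1 h).symm
  · exact absurd h (s.b.ne_zero 0)

theorem trm_psi_pow (s : SSStruct p ρbar) {σ : GK} (hσ : σ ∈ Ip p) (n : ℕ) :
    s.ψ (σ ^ n) = s.ψ σ ^ n := by
  induction n with
  | zero => simpa using trm_psi_one s
  | succ n ih => rw [pow_succ, trm_psi_mul s (pow_mem hσ n) hσ, ih, pow_succ]

theorem trm_psiI_mul (s : SSStruct p ρbar) (i : Fin 2) {σ τ : GK} (hσ : σ ∈ Ip p)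
    (hτ : τ ∈ Ip p) : psiI s i (σ * τ) = psiI s i σ * psiI s i τ := by
  unfold psiI
  split_ifs
  · exact trm_psi_mul s hσ hτ
  · rw [trm_psi_mul s hσ hτ, mul_pow]

theorem trm_psiI_one (s : SSStruct p ρbar) (i : Fin 2) : psiI s i 1 = 1 := by
  unfold psiI
  split_ifs <;> simp [trm_psi_one s]

theorem trm_psiI_eq_one (s : SSStruct p ρbar) (i : Fin 2) {σ : GK} (h : s.ψ σ = 1) :
    psiI s i σ = 1 := by
  unfold psiI
  split_ifs <;> simp [h]

theorem trm_two_le (p : ℕ) [hp : Fact p.Prime] : 2 ≤ p := hp.out.two_le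

theorem trm_lt_sq (p : ℕ) [Fact p.Prime] : p < p ^ 2 - 1 := by
  have h2 := trm_two_le p
  have h3 : p * 2 ≤ p * p := Nat.mul_le_mul_left p h2
  have h4 : p ^ 2 = p * p := sq p
  omega

theorem trm_psiI_tau_ne_one (s : SSStruct p ρbar) (i : Fin 2) : psiI s i s.τ ≠ 1 := by
  have h2 := trm_two_le p
  have h3 := trm_lt_sq p
  unfold psiI
  split_ifs
  · intro h
    have := s.ord 1 Nat.one_pos (by simpa using h)
    omega
  · intro h
    have := s.ord p (by omega) h
    omega

/-- The coordinates of `ρbar σ v` for `σ` in inertia. -/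
theorem trm_repr_rho (s : SSStruct p ρbar) (i : Fin 2) {σ : GK} (hσ : σ ∈ Ip p) (v : ρbar.V) :
    s.b.repr (ρbar.ρ σ v) i = psiI s i σ * s.b.repr v i := by
  conv_lhs => rw [← s.b.sum_repr v]
  rw [map_sum]
  simp only [map_smul, trm_diag s _ hσ, Fin.sum_univ_two, map_add, Finsupp.coe_add,
    Pi.add_apply, Finsupp.smul_apply, smul_eq_mul, Module.Basis.repr_self]
  fin_cases i <;> simp [mul_comm]

/-- Elements of `I₁` act trivially on `V`. -/
theorem trm_rho_I1 (s : SSStruct p ρbar) {h : GK} (hh : h ∈ I1 s) (v : ρbar.V) :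
    ρbar.ρ h v = v := by
  apply s.b.repr.injective
  ext i
  rw [trm_repr_rho s i hh.1, trm_psiI_eq_one s i hh.2, one_mul]

/-! ### Part B: the module `V × V` -/

/-- `defAct` as an additive map. -/
noncomputable def defActHom (ρbar : ResidualGaloisRep k) (c : GK → Module.End k ρbar.V)
    (σ : GK) : ρbar.V × ρbar.V →+ ρbar.V × ρbar.V where
  toFun := defAct ρbar c σ
  map_zero' := by simp [defAct]
  map_add' := fun x y => by
    simp only [defAct, Prod.fst_add, Prod.snd_add, map_add, Prod.mk_add_mk]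
    congr 1
    abel

@[simp] theorem defActHom_apply (c : GK → Module.End k ρbar.V) (σ : GK)
    (x : ρbar.V × ρbar.V) : defActHom ρbar c σ x = defAct ρbar c σ x := rfl

theorem trm_c_one (c : GK → Module.End k ρbar.V)
    (hc : ∀ σ τ : GK, c (σ * τ) = c σ + ρbar.ρ σ * c τ * ρbar.ρ σ⁻¹) : c 1 = 0 := by
  have h := hc 1 1
  simp only [mul_one, map_one, inv_one, one_mul] at h
  exact left_eq_add.1 h

theorem trm_defAct_mul (c : GK → Module.End k ρbar.V)
    (hc : ∀ σ τ : GK, c (σ * τ) = c σ + ρbar.ρ σ * c τ * ρbar.ρ σ⁻¹) (σ τ : GK)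
    (x : ρbar.V × ρbar.V) :
    defAct ρbar c (σ * τ) x = defAct ρbar c σ (defAct ρbar c τ x) := by
  have hinv : ρbar.ρ σ⁻¹ * ρbar.ρ σ = 1 := by rw [← map_mul, inv_mul_cancel, map_one]
  have hinv' : ∀ v, ρbar.ρ σ⁻¹ (ρbar.ρ σ v) = v := fun v => by
    rw [← Module.End.mul_apply, hinv, Module.End.one_apply]
  simp only [defAct, hc σ τ, map_mul, Module.End.mul_apply, LinearMap.add_apply, map_add,
    hinv']
  congr 1
  abel

theorem trm_isIAction_defAct (P : ValuationSubring Kb) (c : GK → Module.End k ρbar.V)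
    (hc : ∀ σ τ : GK, c (σ * τ) = c σ + ρbar.ρ σ * c τ * ρbar.ρ σ⁻¹) :
    IsIAction P (defAct ρbar c) := by
  refine ⟨fun σ _ w w' => (defActHom ρbar c σ).map_add w w', fun w => ?_,
    fun σ _ τ _ w => trm_defAct_mul c hc σ τ w⟩
  simp [defAct, trm_c_one c hc]

/-! ### Part B3: `V` and `V × V` have no inertia coinvariants -/

/-- `ρbar τ - 1` is surjective on `V`. -/
theorem trm_exists_rho_sub (s : SSStruct p ρbar) (v : ρbar.V) :
    ∃ v' : ρbar.V, ρbar.ρ s.τ v' - v' = v := by
  refine ⟨s.b.equivFun.symm (fun i => s.b.repr v i / (psiI s i s.τ - 1)), ?_⟩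
  apply s.b.repr.injective
  ext i
  have hne : psiI s i s.τ - 1 ≠ 0 := sub_ne_zero.2 (trm_psiI_tau_ne_one s i)
  rw [map_sub, Finsupp.sub_apply, trm_repr_rho s i s.τ_mem]
  have h1 : s.b.repr (s.b.equivFun.symm (fun i => s.b.repr v i / (psiI s i s.τ - 1))) i
      = s.b.repr v i / (psiI s i s.τ - 1) := by
    have := congrFun (s.b.equivFun.apply_symm_apply
      (fun i => s.b.repr v i / (psiI s i s.τ - 1))) i
    simpa [Module.Basis.equivFun_apply] using this
  rw [h1]
  field_simp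

theorem trm_sub_mem_augI (P : ValuationSubring Kb) {W : Type} [AddCommGroup W]
    (act : GK → W → W) {σ : GK} (hσ : σ ∈ P.inertiaSubgroupIn ℚ) (v : W) :
    act σ v - v ∈ augI P act :=
  AddSubgroup.subset_closure ⟨σ, hσ, v, Set.mem_univ _, rfl⟩

/-- `V × V` has no inertia coinvariants. -/
theorem trm_augI_defAct (s : SSStruct p ρbar) (c : GK → Module.End k ρbar.V)
    (x : ρbar.V × ρbar.V) : x ∈ augI (Pp p) (defAct ρbar c) := by
  have h0 : ∀ v : ρbar.V, ((0 : ρbar.V), v) ∈ augI (Pp p) (defAct ρbar c) := by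
    intro v
    obtain ⟨v', hv'⟩ := trm_exists_rho_sub s v
    have h := trm_sub_mem_augI (Pp p) (defAct ρbar c) s.τ_mem ((0 : ρbar.V), v')
    have e : defAct ρbar c s.τ ((0 : ρbar.V), v') - ((0 : ρbar.V), v') = ((0 : ρbar.V), v) := by
      simp [defAct, hv']
    rwa [e] at h
  have h1 : ∀ v : ρbar.V, (v, (0 : ρbar.V)) ∈ augI (Pp p) (defAct ρbar c) := by
    intro v
    obtain ⟨v', hv'⟩ := trm_exists_rho_sub s v
    have h := trm_sub_mem_augI (Pp p) (defAct ρbar c) s.τ_mem (v', (0 : ρbar.V))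
    have e : defAct ρbar c s.τ (v', (0 : ρbar.V)) - (v', (0 : ρbar.V))
        = (v, (0 : ρbar.V)) + ((0 : ρbar.V), c s.τ (ρbar.ρ s.τ v')) := by
      simp [defAct, hv']
    rw [e] at h
    have h2 := (augI (Pp p) (defAct ρbar c)).sub_mem h (h0 (c s.τ (ρbar.ρ s.τ v')))
    simpa using h2
  have e : x = (x.1, (0 : ρbar.V)) + ((0 : ρbar.V), x.2) := by simp
  rw [e]
  exact (augI (Pp p) (defAct ρbar c)).add_mem (h1 _) (h0 _)

/-! ### Part C: actions on quotients -/

/-- The action induced on a quotient by an additive action stabilising `N` (the identity for the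
`σ` which do not stabilise `N`). -/
noncomputable def quotAct {M : Type} [AddCommGroup M] (act : GK → M →+ M) (N : AddSubgroup M)
    (σ : GK) : M ⧸ N → M ⧸ N :=
  open Classical in
  if h : N ≤ N.comap (act σ) then QuotientAddGroup.map N N (act σ) h else id

theorem quotAct_mk {M : Type} [AddCommGroup M] (act : GK → M →+ M) (N : AddSubgroup M)
    {σ : GK} (h : N ≤ N.comap (act σ)) (m : M) :
    quotAct act N σ (QuotientAddGroup.mk m) = QuotientAddGroup.mk (act σ m) := by
  unfold quotAct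
  rw [dif_pos h]
  rfl

theorem quotAct_add {M : Type} [AddCommGroup M] (act : GK → M →+ M) (N : AddSubgroup M)
    (σ : GK) (u v : M ⧸ N) : quotAct act N σ (u + v) = quotAct act N σ u + quotAct act N σ v := by
  unfold quotAct
  split_ifs
  · exact map_add _ u v
  · rfl

theorem trm_isIAction_quotAct (P : ValuationSubring Kb) {M : Type} [AddCommGroup M]
    (act : GK → M →+ M) (hact : IsIAction P (fun σ => (act σ : M → M))) (N : AddSubgroup M)
    (hN : ∀ σ ∈ P.inertiaSubgroupIn ℚ, N ≤ N.comap (act σ)) :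
    IsIAction P (quotAct act N) := by
  refine ⟨fun σ _ w w' => quotAct_add act N σ w w', fun w => ?_, fun σ hσ τ hτ w => ?_⟩
  · induction w using QuotientAddGroup.induction_on with
    | H m =>
      rw [quotAct_mk act N (hN 1 (one_mem _))]
      exact congrArg _ (hact.2.1 m)
  · induction w using QuotientAddGroup.induction_on with
    | H m =>
      rw [quotAct_mk act N (hN _ (mul_mem hσ hτ)), quotAct_mk act N (hN τ hτ),
        quotAct_mk act N (hN σ hσ)]
      exact congrArg _ (hact.2.2 σ hσ τ hτ m)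

/-- If `M` has no inertia coinvariants, neither has `M ⧸ N`. -/
theorem trm_augI_quotAct (P : ValuationSubring Kb) {M : Type} [AddCommGroup M]
    (act : GK → M →+ M) (N : AddSubgroup M)
    (hN : ∀ σ ∈ P.inertiaSubgroupIn ℚ, N ≤ N.comap (act σ))
    (hM : ∀ m : M, m ∈ augI P (fun σ => (act σ : M → M))) (u : M ⧸ N) :
    u ∈ augI P (quotAct act N) := by
  induction u using QuotientAddGroup.induction_on with
  | H m =>
    have h := hM m
    unfold augI augOn at h
    induction h using AddSubgroup.closure_induction with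
    | mem x hx =>
      obtain ⟨σ, hσ, v, -, rfl⟩ := hx
      have := trm_sub_mem_augI P (quotAct act N) hσ (QuotientAddGroup.mk v : M ⧸ N)
      rwa [quotAct_mk act N (hN σ hσ)] at this
    | zero => exact (augI P (quotAct act N)).zero_mem
    | add x y _ _ hx hy => exact (augI P (quotAct act N)).add_mem hx hy
    | neg x _ hx => exact (augI P (quotAct act N)).neg_mem hx

/-! ### Part C2: the models `W = k ⧸ S` and `U = (V × V) ⧸ ({0} × NV)` -/

/-- `ρbar σ` as an additive map. -/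
noncomputable def rhoHom (ρbar : ResidualGaloisRep k) (σ : GK) : ρbar.V →+ ρbar.V :=
  (ρbar.ρ σ).toAddMonoidHom

/-- Multiplication by the character `psiI s i σ`, as an additive map of `k`. -/
noncomputable def mulHom (s : SSStruct p ρbar) (i : Fin 2) (σ : GK) : k →+ k :=
  AddMonoidHom.mulLeft (psiI s i σ)

@[simp] theorem mulHom_apply (s : SSStruct p ρbar) (i : Fin 2) (σ : GK) (z : k) :
    mulHom s i σ z = psiI s i σ * z := rfl

/-- The `i`-th coordinate, as an additive map. -/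
noncomputable def coordHom (s : SSStruct p ρbar) (i : Fin 2) : ρbar.V →+ k where
  toFun := fun v => s.b.repr v i
  map_zero' := by simp
  map_add' := fun v w => by simp

@[simp] theorem coordHom_apply (s : SSStruct p ρbar) (i : Fin 2) (v : ρbar.V) :
    coordHom s i v = s.b.repr v i := rfl

/-- `NV = {v | i-th coordinate ∈ S}`. -/
noncomputable def NV (s : SSStruct p ρbar) (i : Fin 2) (S : AddSubgroup k) :
    AddSubgroup ρbar.V := S.comap (coordHom s i)

/-- `NM = {0} × NV`. -/
noncomputable def NM (s : SSStruct p ρbar) (i : Fin 2) (S : AddSubgroup k) :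
    AddSubgroup (ρbar.V × ρbar.V) := AddSubgroup.prod ⊥ (NV s i S)

theorem mem_NM (s : SSStruct p ρbar) (i : Fin 2) (S : AddSubgroup k)
    (x : ρbar.V × ρbar.V) : x ∈ NM s i S ↔ x.1 = 0 ∧ s.b.repr x.2 i ∈ S := by
  unfold NM NV
  rw [AddSubgroup.mem_prod, AddSubgroup.mem_bot, AddSubgroup.mem_comap, coordHom_apply]

/-- Powers of the character of `τ` give the characters of inertia. -/
theorem trm_psiI_gen (s : SSStruct p ρbar) (i : Fin 2) {σ : GK} (hσ : σ ∈ Ip p) :
    ∃ n : ℕ, psiI s i σ = psiI s i s.τ ^ n := by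
  obtain ⟨n, hn⟩ := s.gen σ hσ
  refine ⟨n, ?_⟩
  unfold psiI
  split_ifs
  · exact hn
  · rw [hn, ← pow_mul, ← pow_mul, mul_comm]

/-- `S` is stable under the characters of inertia if it is under the character of `τ`. -/
theorem trm_stable (s : SSStruct p ρbar) (i : Fin 2) (S : AddSubgroup k)
    (hS : ∀ z ∈ S, psiI s i s.τ * z ∈ S) {σ : GK} (hσ : σ ∈ Ip p) :
    ∀ z ∈ S, psiI s i σ * z ∈ S := by
  have key : ∀ n : ℕ, ∀ z ∈ S, psiI s i s.τ ^ n * z ∈ S := by
    intro n
    induction n with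
    | zero => intro z hz; simpa using hz
    | succ n ih => intro z hz; rw [pow_succ, mul_assoc]; exact ih _ (hS z hz)
  obtain ⟨n, hn⟩ := trm_psiI_gen s i hσ
  rw [hn]
  exact key n

theorem trm_S_le_comap (s : SSStruct p ρbar) (i : Fin 2) (S : AddSubgroup k)
    (hS : ∀ z ∈ S, psiI s i s.τ * z ∈ S) {σ : GK} (hσ : σ ∈ Ip p) :
    S ≤ S.comap (mulHom s i σ) := fun z hz => trm_stable s i S hS hσ z hz

theorem trm_NM_le_comap (s : SSStruct p ρbar) (c : GK → Module.End k ρbar.V) (i : Fin 2)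
    (S : AddSubgroup k) (hS : ∀ z ∈ S, psiI s i s.τ * z ∈ S) {σ : GK} (hσ : σ ∈ Ip p) :
    NM s i S ≤ (NM s i S).comap (defActHom ρbar c σ) := by
  intro x hx
  rw [mem_NM] at hx
  rw [AddSubgroup.mem_comap, mem_NM, defActHom_apply]
  obtain ⟨h1, h2⟩ := hx
  refine ⟨by simp [defAct, h1], ?_⟩
  simp only [defAct, h1, map_zero, zero_add]
  rw [trm_repr_rho s i hσ]
  exact trm_stable s i S hS hσ _ h2

/-- The action on `W = k ⧸ S`. -/
noncomputable def actW (s : SSStruct p ρbar) (i : Fin 2) (S : AddSubgroup k) :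
    GK → k ⧸ S → k ⧸ S := quotAct (mulHom s i) S

/-- The action on `U = (V × V) ⧸ NM`. -/
noncomputable def actU (s : SSStruct p ρbar) (c : GK → Module.End k ρbar.V) (i : Fin 2)
    (S : AddSubgroup k) :
    GK → (ρbar.V × ρbar.V) ⧸ NM s i S → (ρbar.V × ρbar.V) ⧸ NM s i S :=
  quotAct (defActHom ρbar c) (NM s i S)

theorem actW_mk (s : SSStruct p ρbar) (i : Fin 2) (S : AddSubgroup k)
    (hS : ∀ z ∈ S, psiI s i s.τ * z ∈ S) {σ : GK} (hσ : σ ∈ Ip p) (z : k) :
    actW s i S σ (QuotientAddGroup.mk z) = QuotientAddGroup.mk (psiI s i σ * z) :=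
  quotAct_mk (mulHom s i) S (trm_S_le_comap s i S hS hσ) z

theorem actU_mk (s : SSStruct p ρbar) (c : GK → Module.End k ρbar.V) (i : Fin 2)
    (S : AddSubgroup k) (hS : ∀ z ∈ S, psiI s i s.τ * z ∈ S) {σ : GK} (hσ : σ ∈ Ip p)
    (x : ρbar.V × ρbar.V) :
    actU s c i S σ (QuotientAddGroup.mk x) = QuotientAddGroup.mk (defAct ρbar c σ x) :=
  quotAct_mk (defActHom ρbar c) (NM s i S) (trm_NM_le_comap s c i S hS hσ) x

theorem trm_isIAction_mul (s : SSStruct p ρbar) (i : Fin 2) :
    IsIAction (Pp p) (fun σ => (mulHom s i σ : k → k)) := by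
  refine ⟨fun σ _ w w' => (mulHom s i σ).map_add w w', fun w => ?_, fun σ hσ τ hτ w => ?_⟩
  · simp [trm_psiI_one]
  · simp [trm_psiI_mul s i hσ hτ, mul_assoc]

theorem trm_isIAction_actW (s : SSStruct p ρbar) (i : Fin 2) (S : AddSubgroup k)
    (hS : ∀ z ∈ S, psiI s i s.τ * z ∈ S) : IsIAction (Pp p) (actW s i S) :=
  trm_isIAction_quotAct (Pp p) (mulHom s i) (trm_isIAction_mul s i) S
    (fun _ hσ => trm_S_le_comap s i S hS hσ)

theorem trm_isIAction_actU (s : SSStruct p ρbar) (c : GK → Module.End k ρbar.V)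
    (hc : ∀ σ τ : GK, c (σ * τ) = c σ + ρbar.ρ σ * c τ * ρbar.ρ σ⁻¹) (i : Fin 2)
    (S : AddSubgroup k) (hS : ∀ z ∈ S, psiI s i s.τ * z ∈ S) :
    IsIAction (Pp p) (actU s c i S) :=
  trm_isIAction_quotAct (Pp p) (defActHom ρbar c) (trm_isIAction_defAct (Pp p) c hc) _
    (fun _ hσ => trm_NM_le_comap s c i S hS hσ)

theorem trm_augI_actU (s : SSStruct p ρbar) (c : GK → Module.End k ρbar.V) (i : Fin 2)
    (S : AddSubgroup k) (hS : ∀ z ∈ S, psiI s i s.τ * z ∈ S)
    (u : (ρbar.V × ρbar.V) ⧸ NM s i S) : u ∈ augI (Pp p) (actU s c i S) :=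
  trm_augI_quotAct (Pp p) (defActHom ρbar c) _ (fun _ hσ => trm_NM_le_comap s c i S hS hσ)
    (trm_augI_defAct s c) u

/-- `z ↦ (0, z • b i)`. -/
noncomputable def jW (s : SSStruct p ρbar) (i : Fin 2) : k →+ ρbar.V × ρbar.V where
  toFun := fun z => ((0 : ρbar.V), z • s.b i)
  map_zero' := by simp
  map_add' := fun z w => by simp [add_smul]

@[simp] theorem jW_apply (s : SSStruct p ρbar) (i : Fin 2) (z : k) :
    jW s i z = ((0 : ρbar.V), z • s.b i) := rfl

theorem trm_jW_mem (s : SSStruct p ρbar) (i : Fin 2) (S : AddSubgroup k) (z : k) :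
    jW s i z ∈ NM s i S ↔ z ∈ S := by
  rw [mem_NM]
  simp

/-- The embedding `W ↪ U`. -/
noncomputable def iW (s : SSStruct p ρbar) (i : Fin 2) (S : AddSubgroup k) :
    k ⧸ S →+ (ρbar.V × ρbar.V) ⧸ NM s i S :=
  QuotientAddGroup.map S (NM s i S) (jW s i) (fun z hz => (trm_jW_mem s i S z).2 hz)

theorem iW_mk (s : SSStruct p ρbar) (i : Fin 2) (S : AddSubgroup k) (z : k) :
    iW s i S (QuotientAddGroup.mk z) = QuotientAddGroup.mk ((0 : ρbar.V), z • s.b i) := rfl

theorem iW_injective (s : SSStruct p ρbar) (i : Fin 2) (S : AddSubgroup k) :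
    Function.Injective (iW s i S) := by
  rw [injective_iff_map_eq_zero]
  intro w hw
  induction w using QuotientAddGroup.induction_on with
  | H z =>
    rw [iW_mk, QuotientAddGroup.eq_zero_iff] at hw
    rw [QuotientAddGroup.eq_zero_iff]
    exact (trm_jW_mem s i S z).1 hw

/-- Every class of a `(0, v)` is in the image of `W`. -/
theorem trm_mk_zero_eq (s : SSStruct p ρbar) (i : Fin 2) (S : AddSubgroup k) (v : ρbar.V) :
    (QuotientAddGroup.mk ((0 : ρbar.V), v) : (ρbar.V × ρbar.V) ⧸ NM s i S)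
      = iW s i S (QuotientAddGroup.mk (s.b.repr v i)) := by
  rw [iW_mk, QuotientAddGroup.eq, mem_NM]
  refine ⟨by simp, ?_⟩
  simp

theorem iW_equivariant (s : SSStruct p ρbar) (c : GK → Module.End k ρbar.V) (i : Fin 2)
    (S : AddSubgroup k) (hS : ∀ z ∈ S, psiI s i s.τ * z ∈ S) {σ : GK} (hσ : σ ∈ Ip p)
    (w : k ⧸ S) : iW s i S (actW s i S σ w) = actU s c i S σ (iW s i S w) := by
  induction w using QuotientAddGroup.induction_on with
  | H z =>
    rw [actW_mk s i S hS hσ, iW_mk, iW_mk, actU_mk s c i S hS hσ]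
    congr 1
    simp [defAct, trm_diag s i hσ, smul_smul, mul_comm]

/-! ### Part C3: `W = k ⧸ S` is simple and cyclic -/

theorem trm_psi_tau_pow (s : SSStruct p ρbar) : s.ψ s.τ ^ (p ^ 2) = s.ψ s.τ :=
  s.fp2 s.τ s.τ_mem

theorem trm_psiI_tau_ne_zero (s : SSStruct p ρbar) (i : Fin 2) : psiI s i s.τ ≠ 0 := by
  unfold psiI
  split_ifs
  · exact s.ne_zero
  · exact pow_ne_zero _ s.ne_zero

/-- The character of `τ` on the line `i` has order at least `p² - 1`. -/
theorem trm_psiI_tau_ord (s : SSStruct p ρbar) (i : Fin 2) (n : ℕ) (hn : 0 < n)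
    (h : psiI s i s.τ ^ n = 1) : p ^ 2 - 1 ≤ n := by
  unfold psiI at h
  split_ifs at h
  · exact s.ord n hn h
  · apply s.ord n hn
    have h1 : ((s.ψ s.τ ^ p) ^ n) ^ p = 1 := by rw [h, one_pow]
    rw [← pow_mul, ← pow_mul] at h1
    have e : p * (n * p) = p ^ 2 * n := by ring
    rw [e, pow_mul, trm_psi_tau_pow s] at h1
    exact h1

/-- The quadratic equation of the character of `τ`. -/
theorem trm_psiI_quad (s : SSStruct p ρbar) (i : Fin 2) :
    ∃ t n : ℤ, psiI s i s.τ * psiI s i s.τ = (t : k) * psiI s i s.τ - (n : k) := by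
  obtain ⟨t, n, ht, hn, -⟩ := s.ϖ_char
  refine ⟨t, n, ?_⟩
  rw [ht, hn]
  unfold psiI
  split_ifs
  · ring
  · have e : s.ψ s.τ ^ p * s.ψ s.τ ^ p
        = (s.ψ s.τ + s.ψ s.τ ^ p) * s.ψ s.τ ^ p - s.ψ s.τ ^ (p + 1) := by ring
    exact e

theorem trm_card_W (S : AddSubgroup k) : Nat.card (k ⧸ S) = S.index :=
  (AddSubgroup.index_eq_card S).symm

theorem trm_iterate_actW (s : SSStruct p ρbar) (i : Fin 2) (S : AddSubgroup k)
    (hS : ∀ z ∈ S, psiI s i s.τ * z ∈ S) (n : ℕ) (z : k) :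
    (actW s i S s.τ)^[n] (QuotientAddGroup.mk z) = QuotientAddGroup.mk (psiI s i s.τ ^ n * z) := by
  induction n generalizing z with
  | zero => simp
  | succ n ih =>
    rw [Function.iterate_succ_apply, actW_mk s i S hS s.τ_mem, ih, pow_succ, mul_assoc]

theorem trm_cyclic_W (s : SSStruct p ρbar) (i : Fin 2) (S : AddSubgroup k)
    (hS : ∀ z ∈ S, psiI s i s.τ * z ∈ S) :
    ∃ τ₀ ∈ (Pp p).inertiaSubgroupIn ℚ, ∀ σ ∈ (Pp p).inertiaSubgroupIn ℚ, ∃ n : ℕ,
      ∀ w : k ⧸ S, actW s i S σ w = (actW s i S τ₀)^[n] w := by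
  refine ⟨s.τ, s.τ_mem, fun σ hσ => ?_⟩
  obtain ⟨n, hn⟩ := trm_psiI_gen s i hσ
  refine ⟨n, fun w => ?_⟩
  induction w using QuotientAddGroup.induction_on with
  | H z => rw [actW_mk s i S hS hσ, trm_iterate_actW s i S hS, hn]

theorem trm_simple_W [Finite k] (s : SSStruct p ρbar) (i : Fin 2) (S : AddSubgroup k)
    (hS : ∀ z ∈ S, psiI s i s.τ * z ∈ S) (hidx : S.index = p ^ 2) :
    ∀ N : AddSubgroup (k ⧸ S),
      (∀ σ ∈ (Pp p).inertiaSubgroupIn ℚ, ∀ n ∈ N, actW s i S σ n ∈ N) → N = ⊥ ∨ N = ⊤ := by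
  intro N hN
  have hT : ∀ z ∈ N.comap (QuotientAddGroup.mk' S), psiI s i s.τ * z ∈
      N.comap (QuotientAddGroup.mk' S) := by
    intro z hz
    rw [AddSubgroup.mem_comap] at hz ⊢
    have := hN s.τ s.τ_mem _ hz
    rwa [QuotientAddGroup.mk'_apply, actW_mk s i S hS s.τ_mem] at this
  have hST : S ≤ N.comap (QuotientAddGroup.mk' S) := by
    intro z hz
    rw [AddSubgroup.mem_comap, QuotientAddGroup.mk'_apply,
      (QuotientAddGroup.eq_zero_iff z).2 hz]
    exact N.zero_mem
  rcases trc_simple (psiI s i s.τ) (p ^ 2) (trm_psiI_tau_ne_zero s i) (trm_psiI_tau_ord s i) S hS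
    hidx _ hST hT with h | h
  · left
    rw [eq_bot_iff]
    intro w hw
    induction w using QuotientAddGroup.induction_on with
    | H z =>
      rw [AddSubgroup.mem_bot]
      exact (QuotientAddGroup.eq_zero_iff z).2 (h hw)
  · right
    rw [eq_top_iff]
    intro w _
    induction w using QuotientAddGroup.induction_on with
    | H z =>
      have : z ∈ N.comap (QuotientAddGroup.mk' S) := by rw [h]; trivial
      exact this

end Fermat.Agent.S56.SS
end MergeWrap_S56_W4_C_TR_Model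

section MergeWrap_S56_W4_C_TR_Asm -- from S56/W4/C/TR/Asm.lean

set_option autoImplicit false
set_option linter.unusedSectionVars false
set_option linter.style.haveILetI false

namespace Fermat.Agent.S56.SS

open Fermat.Agent.F4 ExtCitation Fermat.Agent.FFL Fermat.Agent.FlatMod Fermat.Agent.S56.SO

local notation "Kb" => AlgebraicClosure ℚ
local notation "GK" => (AlgebraicClosure ℚ ≃ₐ[ℚ] AlgebraicClosure ℚ)

variable {p : ℕ} [Fact p.Prime] {k : Type} [Field k] [Finite k] {ρbar : ResidualGaloisRep k}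

theorem tra_pos (p : ℕ) [Fact p.Prime] : 0 < p ^ 2 - 1 := by
  have := trm_lt_sq p
  omega

instance tra_finite_V (ρbar : ResidualGaloisRep k) : Finite ρbar.V :=
  Module.finite_of_finite k

/-- `quotAct` fixes `0`. -/
theorem tra_quotAct_zero {M : Type} [AddCommGroup M] (act : GK → M →+ M) (N : AddSubgroup M)
    (σ : GK) : quotAct act N σ 0 = 0 := by
  have h := quotAct_add act N σ 0 0
  rw [add_zero] at h
  exact left_eq_add.1 h

/-- An `I`-action is injective. -/
theorem tra_act_ne_zero {P : ValuationSubring Kb} {W : Type} [AddCommGroup W]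
    {act : GK → W → W} (hact : IsIAction P act) (h0 : ∀ σ, act σ 0 = 0) {σ : GK}
    (hσ : σ ∈ P.inertiaSubgroupIn ℚ) {w : W} (hw : w ≠ 0) : act σ w ≠ 0 := by
  intro h
  apply hw
  have h1 := hact.2.2 σ⁻¹ (inv_mem hσ) σ hσ w
  rw [inv_mul_cancel, hact.2.1, h, h0] at h1
  exact h1

/-- `ValGE` of `0`. -/
theorem tra_valGE_zero (P : ValuationSubring Kb) {n : ℕ} (hn : 0 < n) : ValGE p P 0 1 n := by
  unfold ValGE
  rw [zero_pow hn.ne', zero_div]
  exact P.zero_mem

/-- `ValLE` is monotone in the numerator. -/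
theorem tra_valLE_mono (P : ValuationSubring Kb) {y : Kb} {a a' b : ℕ} (h : ValLE p P y a b)
    (haa' : a ≤ a') : ValLE p P y a' b := by
  refine ⟨h.1, ?_⟩
  have e : (p : Kb) ^ a' / y ^ b = (p : Kb) ^ (a' - a) * ((p : Kb) ^ a / y ^ b) := by
    rw [← mul_div_assoc, ← pow_add, Nat.sub_add_cancel haa']
  rw [e]
  exact P.mul_mem _ _ (pow_mem (natCast_mem P p) _) h.2

section Main

variable (hT3 : T3Prop p (Pp p)) (hRed : RedProp (Pp p)) (hHopf : IOrdHopfProp p (Pp p))
  (hSub : IOrdSubProp (Pp p)) (hQuot : IOrdQuotProp p (Pp p)) (hVal : ValOrbitProp p (Pp p))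

include hT3 hHopf hSub hQuot in
/-- The order on `U` and the function `Z`. -/
theorem tra_exists_Z (s : SSStruct p ρbar) (hp2 : p ≠ 2) (c : GK → Module.End k ρbar.V)
    (hc : ∀ σ τ : GK, c (σ * τ) = c σ + ρbar.ρ σ * c τ * ρbar.ρ σ⁻¹)
    (hfl : IsFlatGaloisModule p (ρbar.V × ρbar.V) (defAct ρbar c))
    (i : Fin 2) (S : AddSubgroup k) (hS : ∀ z ∈ S, psiI s i s.τ * z ∈ S)
    (hidx : S.index = p ^ 2) :
    ∃ (OU : IOrd (Pp p) ((ρbar.V × ρbar.V) ⧸ NM s i S) (actU s c i S))
      (Z : (ρbar.V × ρbar.V) ⧸ NM s i S → Kb), Z ∈ OU.alg ∧ Z 0 = 0 ∧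
      ∀ w : k ⧸ S, w ≠ 0 → ValGE p (Pp p) (Z (iW s i S w)) 1 (p ^ 2 - 1) ∧
        ValLE p (Pp p) (Z (iW s i S w)) 1 (p ^ 2 - 1) := by
  have hp : p.Prime := Fact.out
  have hP : (Pp p).LiesOverPrime p := so_liesOver p
  obtain ⟨OM⟩ := hHopf hp hP (ρbar.V × ρbar.V) (defAct ρbar c) hfl
  obtain ⟨OU, hOU⟩ := hQuot hp hP (ρbar.V × ρbar.V) (defAct ρbar c) OM
    ((ρbar.V × ρbar.V) ⧸ NM s i S) (QuotientAddGroup.mk' (NM s i S)) (actU s c i S)
    (trm_isIAction_defAct (Pp p) c hc) (QuotientAddGroup.mk'_surjective _)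
    (fun σ hσ w => (actU_mk s c i S hS hσ w).symm)
  obtain ⟨OW, hOW⟩ := hSub ((ρbar.V × ρbar.V) ⧸ NM s i S) (actU s c i S) OU (k ⧸ S)
    (iW s i S) (actW s i S) (iW_injective s i S)
    (fun σ hσ n => iW_equivariant s c i S hS hσ n)
  obtain ⟨-, ZW, hZW, hZ0, hZv⟩ := hT3 hp hp2 hP (k ⧸ S) (actW s i S) OW
    (trm_isIAction_actW s i S hS) (by rw [trm_card_W, hidx]) (trm_cyclic_W s i S hS)
    (trm_simple_W s i S hS hidx)
  obtain ⟨Z, hZ, hZeq⟩ := (hOW ZW).1 hZW
  refine ⟨OU, Z, hZ, ?_, fun w hw => ?_⟩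
  · have := congrFun hZeq 0
    rw [map_zero] at this
    rw [← this, hZ0]
  · have := congrFun hZeq w
    rw [← this]
    exact hZv w hw

include hRed hVal in
/-- All functions of the order on `U` have valuation `≥ 1/(p² - 1)` on `W`. -/
theorem tra_valGE (s : SSStruct p ρbar) (c : GK → Module.End k ρbar.V)
    (hc : ∀ σ τ : GK, c (σ * τ) = c σ + ρbar.ρ σ * c τ * ρbar.ρ σ⁻¹)
    (i : Fin 2) (S : AddSubgroup k) (hS : ∀ z ∈ S, psiI s i s.τ * z ∈ S)
    (hidx : S.index = p ^ 2)
    (OU : IOrd (Pp p) ((ρbar.V × ρbar.V) ⧸ NM s i S) (actU s c i S)) :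
    ∀ a ∈ (iW s i S).range, ∀ Y ∈ OU.alg, ValGE p (Pp p) (Y a - Y 0) 1 (p ^ 2 - 1) := by
  classical
  have hp : p.Prime := Fact.out
  have hP : (Pp p).LiesOverPrime p := so_liesOver p
  rintro _ ⟨a', rfl⟩ Y hY
  by_cases ha : a' = 0
  · rw [ha, map_zero, sub_self]
    exact tra_valGE_zero (Pp p) (tra_pos p)
  letI : Fintype (k ⧸ S) := Fintype.ofFinite _
  have hactU := trm_isIAction_actU s c hc i S hS
  refine hVal hp hP _ (((Finset.univ : Finset (k ⧸ S)).erase 0).image
    (fun b => Y (iW s i S b) - Y 0)) (p ^ 2 - 1)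
    (hRed _ _ OU hactU _ (trm_augI_actU s c i S hS _) Y hY) (fun σ hσ => ?_) ?_ (tra_pos p)
  · rw [Finset.mem_image]
    refine ⟨actW s i S σ a', ?_, ?_⟩
    · rw [Finset.mem_erase]
      exact ⟨tra_act_ne_zero (trm_isIAction_actW s i S hS)
        (fun σ => tra_quotAct_zero _ _ σ) hσ ha, Finset.mem_univ _⟩
    · rw [map_sub, ← OU.equiv Y hY σ hσ, ← OU.equiv Y hY σ hσ, iW_equivariant s c i S hS hσ]
      congr 2
      exact (tra_quotAct_zero _ _ σ).symm
  · refine le_trans Finset.card_image_le ?_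
    rw [Finset.card_erase_of_mem (Finset.mem_univ _), Finset.card_univ,
      ← Nat.card_eq_fintype_card, trm_card_W, hidx]

/-- The translation of the base point `[(b j, 0)]` by an element of `I₁`. -/
theorem tra_actU_base (s : SSStruct p ρbar) (c : GK → Module.End k ρbar.V)
    (i j : Fin 2) (S : AddSubgroup k) (hS : ∀ z ∈ S, psiI s i s.τ * z ∈ S) {h : GK}
    (hh : h ∈ I1 s) :
    actU s c i S h (QuotientAddGroup.mk (s.b j, (0 : ρbar.V)))
      = QuotientAddGroup.mk (s.b j, (0 : ρbar.V))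
        + iW s i S (QuotientAddGroup.mk (ent s c i j h)) := by
  rw [actU_mk s c i S hS hh.1]
  have e : defAct ρbar c h (s.b j, (0 : ρbar.V))
      = (s.b j, (0 : ρbar.V)) + ((0 : ρbar.V), c h (s.b j)) := by
    simp [defAct, trm_rho_I1 s hh]
  rw [e, QuotientAddGroup.mk_add, trm_mk_zero_eq s i S]
  rfl

/-- Elements of `I₁` act trivially on `W`. -/
theorem tra_actW_I1 (s : SSStruct p ρbar) (i : Fin 2) (S : AddSubgroup k)
    (hS : ∀ z ∈ S, psiI s i s.τ * z ∈ S) {h : GK} (hh : h ∈ I1 s) (w : k ⧸ S) :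
    actW s i S h w = w := by
  induction w using QuotientAddGroup.induction_on with
  | H z => rw [actW_mk s i S hS hh.1, trm_psiI_eq_one s i hh.2, one_mul]

end Main

section Final

variable (hT3 : T3Prop p (Pp p)) (hRed : RedProp (Pp p)) (hHopf : IOrdHopfProp p (Pp p))
  (hSub : IOrdSubProp (Pp p)) (hQuot : IOrdQuotProp p (Pp p)) (hVal : ValOrbitProp p (Pp p))
  (hSharp : SharpAbsProp p (Pp p)) (hCheap : CheapAbsProp p (Pp p))

include hT3 hRed hHopf hSub hQuot hVal hSharp in
/-- **SHARP** for the entry `(i, i)` and a subgroup stable under the character of the line `i`. -/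
theorem tra_sharp (s : SSStruct p ρbar) (hp2 : p ≠ 2) (c : GK → Module.End k ρbar.V)
    (hc : ∀ σ τ : GK, c (σ * τ) = c σ + ρbar.ρ σ * c τ * ρbar.ρ σ⁻¹)
    (hfl : IsFlatGaloisModule p (ρbar.V × ρbar.V) (defAct ρbar c))
    (i : Fin 2) (S : AddSubgroup k) (hS : ∀ z ∈ S, psiI s i s.τ * z ∈ S)
    (hidx : S.index = p ^ 2) (g : GK) (hg : g ∈ I1 s) (hgS : ent s c i i g ∉ S) :
    ∃ x ∈ Pp p, (∀ h ∈ I1 s, ent s c i i h ∈ S → h x = x) ∧
      ValLE p (Pp p) (g x - x) 1 (p ^ 2 - 1) := by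
  have hp : p.Prime := Fact.out
  have hP : (Pp p).LiesOverPrime p := so_liesOver p
  obtain ⟨OU, Z, hZ, hZ0, hZv⟩ := tra_exists_Z hT3 hHopf hSub hQuot s hp2 c hc hfl i S hS hidx
  have hactU := trm_isIAction_actU s c hc i S hS
  set w : (ρbar.V × ρbar.V) ⧸ NM s i S := QuotientAddGroup.mk (s.b i, (0 : ρbar.V)) with hw
  have hne : (QuotientAddGroup.mk (ent s c i i g) : k ⧸ S) ≠ 0 := fun h =>
    hgS ((QuotientAddGroup.eq_zero_iff _).1 h)
  have hgw : actU s c i S g w = w + iW s i S (QuotientAddGroup.mk (ent s c i i g)) :=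
    tra_actU_base s c i i S hS hg
  have key := hSharp hp hP _ (actU s c i S) OU (iW s i S).range (p ^ 2 - 1) Z (tra_pos p) hZ hZ0
    (by
      rintro _ ⟨a', rfl⟩ ha
      exact (hZv a' (fun h => ha (by rw [h, map_zero]))).2)
    (tra_valGE hRed hVal s c hc i S hS hidx OU) w g
    (fun f hf => hRed _ _ OU hactU _ (trm_augI_actU s c i S hS _) f hf) hg.1
    (by rw [hgw, add_sub_cancel_left]; exact ⟨_, rfl⟩)
    (by
      rw [hgw]
      intro h
      exact hne ((iW_injective s i S) (by rw [map_zero]; exact left_eq_add.1 h.symm)))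
  refine ⟨Z w, OU.int Z hZ w, fun h hh hhS => ?_, key⟩
  rw [← OU.equiv Z hZ h hh.1, tra_actU_base s c i i S hS hh,
    (QuotientAddGroup.eq_zero_iff _).2 hhS, map_zero, add_zero]

include hT3 hRed hHopf hSub hQuot hVal hCheap in
/-- **CHEAP** for the entry `(i, j)` and a subgroup of index `p`. -/
theorem tra_cheap (s : SSStruct p ρbar) (hp2 : p ≠ 2) (c : GK → Module.End k ρbar.V)
    (hc : ∀ σ τ : GK, c (σ * τ) = c σ + ρbar.ρ σ * c τ * ρbar.ρ σ⁻¹)
    (hfl : IsFlatGaloisModule p (ρbar.V × ρbar.V) (defAct ρbar c))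
    (i j : Fin 2) (S' : AddSubgroup k) (hidx' : S'.index = p) (g : GK) (hg : g ∈ I1 s)
    (hgS : ent s c i j g ∉ S') :
    ∃ x ∈ Pp p, (∀ h ∈ I1 s, ent s c i j h ∈ S' → h x = x) ∧
      ValLE p (Pp p) (g x - x) p (p ^ 2 - 1) := by
  classical
  have hp : p.Prime := Fact.out
  have hP : (Pp p).LiesOverPrime p := so_liesOver p
  obtain ⟨t, n, hquad⟩ := trm_psiI_quad s i
  set S : AddSubgroup k := coreS (psiI s i s.τ) S' with hSdef
  have hS : ∀ z ∈ S, psiI s i s.τ * z ∈ S := trc_coreS_stable _ t n hquad S'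
  have hSS' : S ≤ S' := coreS_le _ S'
  have hidx : S.index = p ^ 2 :=
    trc_coreS_index p (trm_two_le p) _ (trm_psiI_tau_ne_zero s i) (trm_psiI_tau_ord s i) t n
      hquad S' hidx'
  obtain ⟨OU, Z, hZ, hZ0, hZv⟩ := tra_exists_Z hT3 hHopf hSub hQuot s hp2 c hc hfl i S hS hidx
  have hactU := trm_isIAction_actU s c hc i S hS
  set w : (ρbar.V × ρbar.V) ⧸ NM s i S := QuotientAddGroup.mk (s.b j, (0 : ρbar.V)) with hw
  letI : Fintype (k ⧸ S) := Fintype.ofFinite _
  set Q : AddSubgroup (k ⧸ S) := S'.map (QuotientAddGroup.mk' S) with hQ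
  set N' : Finset ((ρbar.V × ρbar.V) ⧸ NM s i S) :=
    ((Finset.univ : Finset (k ⧸ S)).filter (fun q => q ∈ Q)).image (iW s i S) with hN'
  have hmemN' : ∀ u, u ∈ N' ↔ ∃ q ∈ Q, iW s i S q = u := by
    intro u
    rw [hN', Finset.mem_image]
    constructor
    · rintro ⟨q, hq, rfl⟩
      exact ⟨q, (Finset.mem_filter.1 hq).2, rfl⟩
    · rintro ⟨q, hq, rfl⟩
      exact ⟨q, Finset.mem_filter.2 ⟨Finset.mem_univ _, hq⟩, rfl⟩
  have hcard : N'.card ≤ p := by
    refine le_trans Finset.card_image_le ?_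
    have h1 : Nat.card Q = p := trc_card_image p hp.pos S S' hSS' hidx hidx'
    have h2 : Nat.card Q = ((Finset.univ : Finset (k ⧸ S)).filter (fun q => q ∈ Q)).card := by
      rw [Nat.card_eq_fintype_card, Fintype.card_subtype]
    rw [← h2, h1]
  have hmkQ : ∀ z : k, (QuotientAddGroup.mk z : k ⧸ S) ∈ Q ↔ z ∈ S' := by
    intro z
    constructor
    · rintro ⟨z', hz', hzz'⟩
      have h1 : -z' + z ∈ S := (QuotientAddGroup.eq (s := S)).1 hzz'
      have e : z = z' + (-z' + z) := by ring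
      rw [e]
      exact S'.add_mem hz' (hSS' h1)
    · intro hz
      exact ⟨z, hz, rfl⟩
  have hbase : ∀ h ∈ I1 s, actU s c i S h w - w
      = iW s i S (QuotientAddGroup.mk (ent s c i j h)) := by
    intro h hh
    rw [tra_actU_base s c i j S hS hh, add_sub_cancel_left]
  have hfix : ∀ h ∈ I1 s, ∀ u ∈ N', actU s c i S h u = u := by
    intro h hh u hu
    obtain ⟨q, -, rfl⟩ := (hmemN' u).1 hu
    rw [← iW_equivariant s c i S hS hh.1, tra_actW_I1 s i S hS hh]
  obtain ⟨x, hxP, hxv, hxfix⟩ := hCheap hp hP _ (actU s c i S) OU (iW s i S).range (p ^ 2 - 1) Z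
    (tra_pos p) hZ hZ0
    (by
      rintro _ ⟨a', rfl⟩ ha
      exact (hZv a' (fun h => ha (by rw [h, map_zero]))).2)
    (tra_valGE hRed hVal s c hc i S hS hidx OU) N' w g
    (fun f hf => hRed _ _ OU hactU _ (trm_augI_actU s c i S hS _) f hf)
    ((hmemN' 0).2 ⟨0, Q.zero_mem, map_zero _⟩)
    (fun u hu => by
      obtain ⟨q, -, rfl⟩ := (hmemN' u).1 hu
      exact ⟨q, rfl⟩)
    (fun u hu v hv => by
      obtain ⟨q, hq, rfl⟩ := (hmemN' u).1 hu
      obtain ⟨q', hq', rfl⟩ := (hmemN' v).1 hv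
      exact (hmemN' _).2 ⟨q + q', Q.add_mem hq hq', map_add _ _ _⟩)
    hg.1 (hfix g hg) (fun u v => quotAct_add _ _ g u v)
    (by rw [hbase g hg]; exact ⟨_, rfl⟩)
    (by
      rw [hbase g hg]
      intro h
      obtain ⟨q, hq, hqe⟩ := (hmemN' _).1 h
      rw [(iW_injective s i S) hqe] at hq
      exact hgS ((hmkQ _).1 hq))
  refine ⟨x, hxP, fun h hh hhS => ?_, tra_valLE_mono (Pp p) hxv hcard⟩
  refine hxfix h hh.1 (hfix h hh) (fun u v => quotAct_add _ _ h u v) ?_
  rw [hbase h hh]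
  exact (hmemN' _).2 ⟨_, (hmkQ _).2 hhS, rfl⟩

include hT3 hRed hHopf hSub hQuot hVal hSharp hCheap in
/-- **Block TR**: `HopfSideProp p` from the leaves. -/
theorem hopfSideProp_of_leaves : HopfSideProp p := by
  intro k _ _ ρbar s hp2 c hc hfl
  refine ⟨fun i j S' hidx' g hg hgS =>
    tra_cheap hT3 hRed hHopf hSub hQuot hVal hCheap s hp2 c hc hfl i j S' hidx' g hg hgS,
    fun i S hidx hS g hg hgS => ?_⟩
  refine tra_sharp hT3 hRed hHopf hSub hQuot hVal hSharp s hp2 c hc hfl i S ?_ hidx g hg hgS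
  intro z hz
  unfold psiI
  split_ifs
  · exact hS s.τ s.τ_mem z hz
  · rw [← trm_psi_pow s s.τ_mem]
    exact hS _ (pow_mem s.τ_mem p) z hz

end Final

end Fermat.Agent.S56.SS
end MergeWrap_S56_W4_C_TR_Asm

section MergeWrap_S56_W4_C_TR_Sharp -- from S56/W4/C/TR/Sharp.lean

set_option autoImplicit false

namespace Fermat.Agent.S56.SS

open Fermat.Agent.F4 ExtCitation Fermat.Agent.FFL Fermat.Agent.FlatMod

local notation "Kb" => AlgebraicClosure ℚ
local notation "GK" => (AlgebraicClosure ℚ ≃ₐ[ℚ] AlgebraicClosure ℚ)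

/-! ### `ValGE`, `ValLE` in terms of the valuation -/

section Val

variable {p : ℕ} (P : ValuationSubring Kb)

theorem trh_p_ne_zero (hp : p.Prime) : (p : Kb) ≠ 0 := Nat.cast_ne_zero.mpr hp.ne_zero

theorem trh_val_p_ne_zero (hp : p.Prime) : P.valuation (p : Kb) ≠ 0 :=
  (Valuation.ne_zero_iff _).mpr (trh_p_ne_zero hp)

theorem trh_valGE_iff (hp : p.Prime) (x : Kb) (a b : ℕ) :
    ValGE p P x a b ↔ P.valuation x ^ b ≤ P.valuation (p : Kb) ^ a := by
  unfold ValGE
  rw [← ValuationSubring.valuation_le_one_iff, map_div₀, map_pow, map_pow]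
  exact div_le_one₀ (zero_lt_iff.mpr (pow_ne_zero _ (trh_val_p_ne_zero P hp)))

theorem trh_valLE_iff (x : Kb) (a b : ℕ) :
    ValLE p P x a b ↔ x ≠ 0 ∧ P.valuation (p : Kb) ^ a ≤ P.valuation x ^ b := by
  unfold ValLE
  constructor
  · rintro ⟨hx, h⟩
    refine ⟨hx, ?_⟩
    rw [← ValuationSubring.valuation_le_one_iff, map_div₀, map_pow, map_pow] at h
    exact (div_le_one₀ (zero_lt_iff.mpr (pow_ne_zero _
      ((Valuation.ne_zero_iff _).mpr hx)))).mp h
  · rintro ⟨hx, h⟩
    refine ⟨hx, ?_⟩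
    rw [← ValuationSubring.valuation_le_one_iff, map_div₀, map_pow, map_pow]
    exact (div_le_one₀ (zero_lt_iff.mpr (pow_ne_zero _
      ((Valuation.ne_zero_iff _).mpr hx)))).mpr h

/-- `x / y ∈ P` in terms of the valuation. -/
theorem trh_div_mem_iff {x y : Kb} (hy : y ≠ 0) :
    x / y ∈ P ↔ P.valuation x ≤ P.valuation y := by
  rw [← ValuationSubring.valuation_le_one_iff, map_div₀]
  exact div_le_one₀ (zero_lt_iff.mpr ((Valuation.ne_zero_iff _).mpr hy))

/-- `x / y` is a unit of `P` iff `v(x) = v(y)`. -/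
theorem trh_isUnitOf_div_iff {x y : Kb} (hy : y ≠ 0) :
    TR.IsUnitOf P (x / y) ↔ P.valuation x = P.valuation y := by
  rw [TR.isUnitOf_iff, map_div₀]
  exact div_eq_one_iff_eq ((Valuation.ne_zero_iff _).mpr hy)

/-- A nonunit in terms of `ValGE`: `v(x) ≥ 1/n` implies `x ∈ 𝔪`. -/
theorem trh_mem_nonunits_of_valGE (hp : p.Prime) (hP : P.LiesOverPrime p) {x : Kb} {n : ℕ}
    (h : ValGE p P x 1 n) : x ∈ P.nonunits := by
  rw [trh_valGE_iff P hp, pow_one] at h
  rw [ValuationSubring.mem_nonunits_iff]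
  have hpv : P.valuation (p : Kb) < 1 := (ValuationSubring.mem_nonunits_iff P).mp hP
  by_contra hx
  rw [not_lt] at hx
  have h1 : (1 : _) ≤ P.valuation x ^ n := one_le_pow₀ hx
  exact absurd (h1.trans h) (not_le.mpr hpv)

end Val

/-! ### SHARP -/

/-- The valuation data of SHARP / CHEAP at a nonzero `a ∈ W'`: `v(Z a) = 1/n` exactly, and
`v(Y a' - Y 0) ≥ v(Z a)` for `a' ∈ W'`. -/
theorem trh_data {p : ℕ} (P : ValuationSubring Kb) (hp : p.Prime)
    {U : Type} [AddCommGroup U] {act : GK → U → U} (B : IOrd P U act) (W' : AddSubgroup U)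
    {n : ℕ} {Z : U → Kb} (hn : 0 < n) (hZ : Z ∈ B.alg) (hZ0 : Z 0 = 0)
    (hle : ∀ a ∈ W', a ≠ 0 → ValLE p P (Z a) 1 n)
    (hge : ∀ a ∈ W', ∀ Y ∈ B.alg, ValGE p P (Y a - Y 0) 1 n)
    {a : U} (ha : a ∈ W') (ha0 : a ≠ 0) :
    Z a ≠ 0 ∧ P.valuation (Z a) ^ n = P.valuation (p : Kb) ∧
      ∀ a' ∈ W', ∀ Y ∈ B.alg, P.valuation (Y a' - Y 0) ≤ P.valuation (Z a) := by
  obtain ⟨hZa, h1⟩ := (trh_valLE_iff P _ _ _).mp (hle a ha ha0)
  rw [pow_one] at h1
  have h2 := (trh_valGE_iff P hp _ _ _).mp (hge a ha Z hZ)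
  rw [pow_one, hZ0, sub_zero] at h2
  have heq : P.valuation (Z a) ^ n = P.valuation (p : Kb) := le_antisymm h2 h1
  refine ⟨hZa, heq, fun a' ha' Y hY => ?_⟩
  have h3 := (trh_valGE_iff P hp _ _ _).mp (hge a' ha' Y hY)
  rw [pow_one, ← heq] at h3
  exact le_of_pow_le_pow_left₀ hn.ne' zero_le h3

/-- **SHARP** (abstract form). -/
theorem sharpAbsProp (p : ℕ) (P : ValuationSubring Kb) : SharpAbsProp p P := by
  intro hp _ U _ act B W' n Z hn hZ hZ0 hle hge w g hw hg hmem hne
  set a : U := act g w - w with ha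
  have ha0 : a ≠ 0 := fun h => hne (sub_eq_zero.mp h)
  obtain ⟨hZa, heq, hY⟩ := trh_data P hp B W' hn hZ hZ0 hle hge hmem ha0
  have hwa : act g w = w + a := by rw [ha]; abel
  have hgZ : g (Z w) = Z (w + a) := by rw [← hwa]; exact (B.equiv Z hZ g hg w).symm
  have hs := TR.sharp P B.comul (w := w) (a := a) hw (π := Z a)
    (fun Y hYB => (trh_div_mem_iff P hZa).mpr (hY a hmem Y hYB)) hZ
    ((trh_isUnitOf_div_iff P hZa).mpr (by rw [hZ0, sub_zero]))
  rw [trh_isUnitOf_div_iff P hZa] at hs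
  rw [hgZ, trh_valLE_iff, pow_one]
  refine ⟨?_, ?_⟩
  · intro h0
    rw [h0, map_zero] at hs
    exact (Valuation.ne_zero_iff _).mpr hZa hs.symm
  · rw [hs, heq]

end Fermat.Agent.S56.SS
end MergeWrap_S56_W4_C_TR_Sharp

section MergeWrap_S56_W4_C_TR_Cheap -- from S56/W4/C/TR/Cheap.lean

set_option autoImplicit false

namespace Fermat.Agent.S56.SS

open Fermat.Agent.F4 ExtCitation Fermat.Agent.FFL Fermat.Agent.FlatMod Fermat.Agent.FFL.TR

local notation "Kb" => AlgebraicClosure ℚ
local notation "GK" => (AlgebraicClosure ℚ ≃ₐ[ℚ] AlgebraicClosure ℚ)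

variable {p : ℕ} {P : ValuationSubring Kb}

/-- `x ^ n ∈ P` with `n > 0` implies `x ∈ P`. -/
theorem trs_mem_of_pow_mem {x : Kb} {n : ℕ} (hn : 0 < n) (h : x ^ n ∈ P) : x ∈ P := by
  rw [← ValuationSubring.valuation_le_one_iff] at h ⊢
  rw [map_pow] at h
  exact (pow_le_one_iff hn.ne').1 h

/-- If `v(y) ≥ 1/n` and `v(z) ≤ 1/n` then `y / z ∈ P`. -/
theorem trs_div_mem {y z : Kb} {n : ℕ} (hn : 0 < n) (hy : ValGE p P y 1 n)
    (hz : ValLE p P z 1 n) (hp0 : (p : Kb) ≠ 0) : y / z ∈ P := by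
  apply trs_mem_of_pow_mem hn
  have e : (y / z) ^ n = (y ^ n / (p : Kb) ^ 1) * ((p : Kb) ^ 1 / z ^ n) := by
    have hz0 : z ≠ 0 := hz.1
    rw [div_pow]
    field_simp
  rw [e]
  exact P.mul_mem _ _ hy hz.2

/-- An element of `P` with inverse in `P` is a unit. -/
theorem trs_isUnitOf {x : Kb} (h1 : x ∈ P) (h2 : x⁻¹ ∈ P) (hx : x ≠ 0) : IsUnitOf P x := by
  rw [isUnitOf_iff]
  rw [← ValuationSubring.valuation_le_one_iff] at h1 h2
  rw [map_inv₀] at h2
  have h3 : P.valuation x ≠ 0 := (Valuation.ne_zero_iff _).2 hx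
  have h4 : 1 ≤ P.valuation x := by
    have := (inv_le_one₀ (zero_lt_iff.2 h3)).1 h2
    exact this
  exact le_antisymm h1 h4

theorem trs_add_mem_nonunits {x y : Kb} (hx : x ∈ P.nonunits) (hy : y ∈ P.nonunits) :
    x + y ∈ P.nonunits := by
  rw [ValuationSubring.mem_nonunits_iff] at hx hy ⊢
  exact Valuation.map_add_lt _ hx hy

theorem trs_mem_of_mem_nonunits {x : Kb} (hx : x ∈ P.nonunits) : x ∈ P := by
  rw [ValuationSubring.mem_nonunits_iff] at hx
  rw [← ValuationSubring.valuation_le_one_iff]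
  exact hx.le

/-- `v(x) ≥ 1/n` implies that `x` is a nonunit. -/
theorem trs_nonunit_of_valGE {x : Kb} {n : ℕ} (hP : P.LiesOverPrime p)
    (h : ValGE p P x 1 n) (hp0 : (p : Kb) ≠ 0) : x ∈ P.nonunits := by
  rw [ValuationSubring.mem_nonunits_iff]
  by_contra hcon
  rw [not_lt] at hcon
  have h1 : (1 : P.ValueGroup) ≤ P.valuation x ^ n := one_le_pow₀ hcon
  have h2 : x ^ n = (p : Kb) * (x ^ n / (p : Kb) ^ 1) := by
    field_simp
  have h3 : P.valuation (x ^ n) < 1 := by
    rw [h2, map_mul]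
    have hp1 : P.valuation (p : Kb) < 1 := (ValuationSubring.mem_nonunits_iff P).1 hP
    have hq : P.valuation (x ^ n / (p : Kb) ^ 1) ≤ 1 :=
      (ValuationSubring.valuation_le_one_iff P _).2 h
    calc P.valuation (p : Kb) * P.valuation (x ^ n / (p : Kb) ^ 1)
        ≤ P.valuation (p : Kb) * 1 := by gcongr
      _ = P.valuation (p : Kb) := mul_one _
      _ < 1 := hp1
  rw [map_pow] at h3
  exact absurd h1 (not_le.2 h3)

/-- The kernel of reduction of an `I`-order is closed under addition. -/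
theorem trs_add_redKer {U : Type} [AddCommGroup U] {act : GK → U → U} (B : IOrd P U act)
    {w s : U} (hw : ∀ f ∈ B.alg, f w - f 0 ∈ P.nonunits)
    (hs : ∀ f ∈ B.alg, f s - f 0 ∈ P.nonunits) :
    ∀ f ∈ B.alg, f (w + s) - f 0 ∈ P.nonunits := by
  intro f hf
  obtain ⟨n, g, h, hg, hh, hgh⟩ := B.comul f hf
  have e1 : f (w + s) = ∑ i, g i w * h i s := hgh w s
  have e2 : f 0 = ∑ i, g i 0 * h i 0 := by
    have := hgh 0 0
    rwa [add_zero] at this
  have e3 : f (w + s) - f 0
      = ∑ i, ((g i w - g i 0) * h i s + (h i s - h i 0) * g i 0) := by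
    rw [e1, e2, ← Finset.sum_sub_distrib]
    exact Finset.sum_congr rfl fun i _ => by ring
  rw [e3]
  refine sum_mem_nonunits P _ _ fun i _ => trs_add_mem_nonunits ?_ ?_
  · exact mul_mem_nonunits P (hw _ (hg i)) (B.int _ (hh i) s)
  · exact mul_mem_nonunits P (hs _ (hh i)) (B.int _ (hg i) 0)

/-- Elementary symmetric functions of elements of `P` are in `P`. -/
theorem trs_esymm_mem (m : Multiset Kb) (hm : ∀ x ∈ m, x ∈ P) (j : ℕ) : m.esymm j ∈ P := by
  unfold Multiset.esymm
  refine Subring.multiset_sum_mem P.toSubring _ ?_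
  intro y hy
  obtain ⟨t, ht, rfl⟩ := Multiset.mem_map.1 hy
  refine Subring.multiset_prod_mem P.toSubring _ ?_
  intro x hx
  exact hm x (Multiset.mem_of_le (Multiset.mem_powersetCard.1 ht).1 hx)

/-- A ring homomorphism commutes with the elementary symmetric functions. -/
theorem trs_map_esymm (σ : GK) (m : Multiset Kb) (j : ℕ) :
    σ (m.esymm j) = (m.map σ).esymm j := by
  unfold Multiset.esymm
  rw [map_multiset_sum, Multiset.powersetCard_map, Multiset.map_map, Multiset.map_map]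
  congr 1
  refine Multiset.map_congr rfl fun t _ => ?_
  simp only [Function.comp_apply]
  exact map_multiset_prod σ t

/-- The Galois action on `esymmFun`. -/
theorem trs_act_esymmFun {U : Type} [AddCommGroup U] {act : GK → U → U} (B : IOrd P U act)
    {Z : U → Kb} (hZ : Z ∈ B.alg) (N' : Finset U) (j : ℕ) (w : U) {h : GK}
    (hh : h ∈ P.inertiaSubgroupIn ℚ) (hfix : ∀ s ∈ N', act h s = s)
    (hadd : ∀ u v : U, act h (u + v) = act h u + act h v) :
    h (esymmFun Z N' j w) = esymmFun Z N' j (act h w) := by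
  unfold esymmFun
  rw [trs_map_esymm, Multiset.map_map]
  congr 1
  refine Multiset.map_congr rfl fun s hs => ?_
  simp only [Function.comp_apply]
  have hs' : s ∈ N' := hs
  rw [← B.equiv Z hZ h hh, hadd, hfix s hs']

/-- **CHEAP, abstract form**. -/
theorem cheapAbsProp (p : ℕ) (P : ValuationSubring Kb) : CheapAbsProp p P := by
  classical
  intro hp hP U _ act B W' n Z hn hZ hZ0 hZv hYv N' w g hw h0 hN'W hN'add hg hgfix hgadd hgW hgN'
  have hp0 : (p : Kb) ≠ 0 := Nat.cast_ne_zero.2 hp.ne_zero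
  set a : U := act g w - w with ha
  have ha0 : a ≠ 0 := fun h => hgN' (by rw [h]; exact h0)
  have hZa := hZv a hgW ha0
  have hwa : w + a = act g w := by rw [ha]; abel
  have hsub : ∀ s ∈ N', a - s ∈ W' := fun s hs => W'.sub_mem hgW (hN'W s hs)
  have hsub0 : ∀ s ∈ N', a - s ≠ 0 := fun s hs h => hgN' (by rw [sub_eq_zero.1 h]; exact hs)
  obtain ⟨j, -, -, hj⟩ := cheap P B.comul (w := w) (a := a) N' h0 (π := Z a) hZa.1
    (fun s hs => trs_add_redKer B hw
      (fun f hf => trs_nonunit_of_valGE hP (hYv s (hN'W s hs) f hf) hp0))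
    (fun s hs Y hY => trs_div_mem hn (hYv _ (hsub s hs) Y hY) hZa hp0) hZ
    (fun s hs => by
      rw [hZ0, sub_zero]
      have hZs := hZv _ (hsub s hs) (hsub0 s hs)
      have hge : ∀ b ∈ W', ValGE p P (Z b) 1 n := fun b hb => by
        have := hYv b hb Z hZ
        rwa [hZ0, sub_zero] at this
      refine trs_isUnitOf (trs_div_mem hn (hge _ (hsub s hs)) hZa hp0) ?_
        (div_ne_zero hZs.1 hZa.1)
      rw [inv_div]
      exact trs_div_mem hn (hge a hgW) hZs hp0)
    (B.int Z hZ _)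
  have hxP : esymmFun Z N' j w ∈ P :=
    trs_esymm_mem _ (fun x hx => by
      obtain ⟨s, -, rfl⟩ := Multiset.mem_map.1 hx
      exact B.int Z hZ _) j
  refine ⟨esymmFun Z N' j w, hxP, ?_, fun h hh hfix hadd hhw => ?_⟩
  · rw [trs_act_esymmFun B hZ N' j w hg hgfix hgadd, ← hwa]
    set y : Kb := esymmFun Z N' j (w + a) - esymmFun Z N' j w with hy
    have hy0 : y ≠ 0 := by
      intro h
      apply hj
      rw [h, zero_div]
      exact (ValuationSubring.mem_nonunits_iff P).2 (by rw [map_zero]; exact zero_lt_one)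
    have hinv : Z a ^ N'.card / y ∈ P := by
      have h1 : ¬ P.valuation (y / Z a ^ N'.card) < 1 := fun h =>
        hj ((ValuationSubring.mem_nonunits_iff P).2 h)
      rw [not_lt] at h1
      rw [← ValuationSubring.valuation_le_one_iff, ← inv_div, map_inv₀]
      exact inv_le_one_of_one_le₀ h1
    refine ⟨hy0, ?_⟩
    have e : (p : Kb) ^ N'.card / y ^ n
        = ((p : Kb) ^ 1 / Z a ^ n) ^ N'.card * (Z a ^ N'.card / y) ^ n := by
      have h1 : Z a ≠ 0 := hZa.1
      rw [div_pow, div_pow, ← pow_mul, ← pow_mul, ← pow_mul, one_mul]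
      have e1 : Z a ^ (n * N'.card) = Z a ^ (N'.card * n) := by rw [mul_comm]
      rw [e1]
      have h2 : Z a ^ (N'.card * n) ≠ 0 := pow_ne_zero _ h1
      have h3 : y ^ n ≠ 0 := pow_ne_zero _ hy0
      field_simp
    rw [e]
    exact P.mul_mem _ _ (P.pow_mem hZa.2 _) (P.pow_mem hinv _)
  · rw [trs_act_esymmFun B hZ N' j w hh hfix hadd]
    have e : act h w = w + (act h w - w) := by abel
    rw [e]
    exact esymmFun_add Z N' j w _ (fun s hs => hN'add _ hhw s hs)

end Fermat.Agent.S56.SS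
end MergeWrap_S56_W4_C_TR_Cheap

section MergeWrap_S56_W4_C_TR_IOrdHopf -- from S56/W4/C/TR/IOrdHopf.lean

set_option autoImplicit false

namespace Fermat.Agent.S56.SS

open Fermat.Agent.F4 ExtCitation Fermat.Agent.FFL Fermat.Agent.FlatMod

local notation "Kb" => AlgebraicClosure ℚ
local notation "GK" => (AlgebraicClosure ℚ ≃ₐ[ℚ] AlgebraicClosure ℚ)

/-- The `R'`-span of a Hopf order, as a subalgebra of the functions. -/
noncomputable def iOrdHopfAlg {p : ℕ} {W : Type*} [AddCommGroup W] {act : GK → W → W}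
    (P : ValuationSubring Kb) (O : HopfOrder p W act) :
    Subalgebra (inertiaRing P) (W → Kb) where
  carrier := (spanB P O : Submodule (inertiaRing P) (W → Kb))
  mul_mem' := fun hf hg => spanB_mul_mem P O hf hg
  one_mem' := spanB_one_mem P O
  add_mem' := fun hf hg => (spanB P O).add_mem hf hg
  zero_mem' := (spanB P O).zero_mem
  algebraMap_mem' := fun r => spanB_const_mem P O r.2

theorem mem_iOrdHopfAlg {p : ℕ} {W : Type*} [AddCommGroup W] {act : GK → W → W}
    (P : ValuationSubring Kb) (O : HopfOrder p W act) (f : W → Kb) :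
    f ∈ iOrdHopfAlg P O ↔ f ∈ spanB P O := Iff.rfl

theorem iOrdHopfAlg_toSubmodule {p : ℕ} {W : Type*} [AddCommGroup W] {act : GK → W → W}
    (P : ValuationSubring Kb) (O : HopfOrder p W act) :
    Subalgebra.toSubmodule (iOrdHopfAlg P O) = spanB P O := by
  ext f
  exact Iff.rfl

/-- The `I`-order attached to a Hopf order. -/
noncomputable def iOrdOfHopfOrder {p : ℕ} [Fact p.Prime] {W : Type*} [AddCommGroup W]
    {act : GK → W → W} (P : ValuationSubring Kb) (hP : P.LiesOverPrime p)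
    (O : HopfOrder p W act) : IOrd P W act where
  alg := iOrdHopfAlg P O
  fg := by
    rw [iOrdHopfAlg_toSubmodule, spanB_eq_span_range P hP O]
    exact Submodule.fg_span (Set.finite_range _)
  equiv := fun f hf σ hσ w => spanB_equiv P O hf σ hσ w
  int := fun f hf w => spanB_mem P hP O hf w
  comul := spanB_comulClosed P O
  neg := fun f hf => spanB_comp_neg_mem P O hf
  span := by
    refine top_le_iff.1 ?_
    rw [← spanFun_span_eq_top O]
    refine Submodule.span_mono ?_
    rintro _ ⟨i, rfl⟩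
    exact subset_spanB P O (spanFun_mem O i)

/-- **TR1**: a finite flat Galois module carries an `I`-order. -/
theorem iOrdHopfProp (p : ℕ) (P : ValuationSubring Kb) : IOrdHopfProp p P := by
  intro hp hP M _ _ act hflat
  have : Fact p.Prime := ⟨hp⟩
  obtain ⟨O⟩ := Fermat.Agent.FFL.nonempty_hopfOrder_of_isFlat hflat
  exact ⟨iOrdOfHopfOrder P hP O⟩

end Fermat.Agent.S56.SS
end MergeWrap_S56_W4_C_TR_IOrdHopf

section MergeWrap_S56_W4_C_TR_IOrdSub -- from S56/W4/C/TR/IOrdSub.lean

set_option autoImplicit false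

namespace Fermat.Agent.S56.SS

open Fermat.Agent.F4 ExtCitation Fermat.Agent.FFL Fermat.Agent.FlatMod

local notation "Kb" => AlgebraicClosure ℚ
local notation "GK" => (AlgebraicClosure ℚ ≃ₐ[ℚ] AlgebraicClosure ℚ)

/-- Restriction of functions along `i : N → W`, as a homomorphism of `R'`-algebras. -/
noncomputable def iOrdRestr (P : ValuationSubring Kb) {W N : Type*} (i : N → W) :
    (W → Kb) →ₐ[inertiaRing P] (N → Kb) where
  toFun g := fun n => g (i n)
  map_one' := rfl
  map_mul' _ _ := rfl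
  map_zero' := rfl
  map_add' _ _ := rfl
  commutes' _ := rfl

theorem iOrdRestr_apply (P : ValuationSubring Kb) {W N : Type*} (i : N → W) (g : W → Kb)
    (n : N) : iOrdRestr P i g n = g (i n) := rfl

theorem mem_map_iOrdRestr (P : ValuationSubring Kb) {W N : Type*} (i : N → W)
    (A : Subalgebra (inertiaRing P) (W → Kb)) (f : N → Kb) :
    f ∈ A.map (iOrdRestr P i) ↔ ∃ g ∈ A, f = fun n => g (i n) := by
  rw [Subalgebra.mem_map]
  constructor
  · rintro ⟨g, hg, rfl⟩
    exact ⟨g, hg, rfl⟩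
  · rintro ⟨g, hg, rfl⟩
    exact ⟨g, hg, rfl⟩

/-- The restriction of an `I`-order along an injective additive map compatible with the actions
of inertia. -/
noncomputable def iOrdRestrict (P : ValuationSubring Kb) {W : Type*} [AddCommGroup W]
    {act : GK → W → W} (B : IOrd P W act) {N : Type*} [AddCommGroup N] (i : N →+ W)
    (actN : GK → N → N) (hi : Function.Injective i)
    (hact : ∀ σ ∈ P.inertiaSubgroupIn ℚ, ∀ n : N, i (actN σ n) = act σ (i n)) :
    IOrd P N actN where
  alg := B.alg.map (iOrdRestr P i)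
  fg := by
    have h : Subalgebra.toSubmodule (B.alg.map (iOrdRestr P i)) =
        (Subalgebra.toSubmodule B.alg).map (iOrdRestr P i).toLinearMap := by
      ext f
      simp only [Subalgebra.mem_toSubmodule, Subalgebra.mem_map, Submodule.mem_map,
        AlgHom.toLinearMap_apply]
    rw [h]
    exact B.fg.map _
  equiv := by
    intro f hf σ hσ n
    obtain ⟨g, hg, rfl⟩ := (mem_map_iOrdRestr P i B.alg f).1 hf
    show g (i (actN σ n)) = σ (g (i n))
    rw [hact σ hσ n]
    exact B.equiv g hg σ hσ (i n)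
  int := by
    intro f hf n
    obtain ⟨g, hg, rfl⟩ := (mem_map_iOrdRestr P i B.alg f).1 hf
    exact B.int g hg (i n)
  comul := by
    intro f hf
    obtain ⟨g, hg, rfl⟩ := (mem_map_iOrdRestr P i B.alg f).1 hf
    obtain ⟨m, a, b, ha, hb, hab⟩ := B.comul g hg
    refine ⟨m, fun j => fun n => a j (i n), fun j => fun n => b j (i n),
      fun j => (mem_map_iOrdRestr P i B.alg _).2 ⟨a j, ha j, rfl⟩,
      fun j => (mem_map_iOrdRestr P i B.alg _).2 ⟨b j, hb j, rfl⟩, fun n n' => ?_⟩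
    show g (i (n + n')) = ∑ j, a j (i n) * b j (i n')
    rw [map_add]
    exact hab (i n) (i n')
  neg := by
    intro f hf
    obtain ⟨g, hg, rfl⟩ := (mem_map_iOrdRestr P i B.alg f).1 hf
    refine (mem_map_iOrdRestr P i B.alg _).2 ⟨fun w => g (-w), B.neg g hg, ?_⟩
    funext n
    show g (i (-n)) = g (-(i n))
    rw [map_neg]
  span := by
    refine eq_top_iff.2 (fun f _ => ?_)
    have hF : Function.extend i f 0 ∈ Submodule.span Kb (B.alg : Set (W → Kb)) := by
      rw [B.span]; trivial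
    have h1 : LinearMap.funLeft Kb Kb i (Function.extend i f 0) ∈
        (Submodule.span Kb (B.alg : Set (W → Kb))).map (LinearMap.funLeft Kb Kb i) :=
      Submodule.mem_map_of_mem hF
    rw [Submodule.map_span] at h1
    have h2 : LinearMap.funLeft Kb Kb i (Function.extend i f 0) = f := by
      funext n
      show Function.extend i f 0 (i n) = f n
      exact hi.extend_apply f 0 n
    rw [h2] at h1
    refine Submodule.span_mono ?_ h1
    rintro _ ⟨g, hg, rfl⟩
    exact (mem_map_iOrdRestr P i B.alg _).2 ⟨g, hg, rfl⟩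

/-- **TR2**: restriction of an `I`-order to a subgroup. -/
theorem iOrdSubProp (P : ValuationSubring Kb) : IOrdSubProp P := by
  intro W _ act B N _ i actN hi hact
  exact ⟨iOrdRestrict P B i actN hi hact, fun f => mem_map_iOrdRestr P i B.alg f⟩

end Fermat.Agent.S56.SS
end MergeWrap_S56_W4_C_TR_IOrdSub

section MergeWrap_S56_W4_C_TR_IOrdQuot -- from S56/W4/C/TR/IOrdQuot.lean

set_option autoImplicit false

namespace Fermat.Agent.S56.SS

open Fermat.Agent.F4 ExtCitation Fermat.Agent.FFL Fermat.Agent.FlatMod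

local notation "Kb" => AlgebraicClosure ℚ
local notation "GK" => (AlgebraicClosure ℚ ≃ₐ[ℚ] AlgebraicClosure ℚ)

section

variable {P : ValuationSubring Kb} {W Q : Type} [AddCommGroup W] [AddCommGroup Q]
  {act : GK → W → W}

/-- The functions `f` on `Q` with `f ∘ π` in the order. -/
def quotAlg (B : IOrd P W act) (π : W →+ Q) : Subalgebra (inertiaRing P) (Q → Kb) where
  carrier := {f | (fun w => f (π w)) ∈ B.alg}
  mul_mem' := fun {f g} hf hg => B.alg.mul_mem hf hg
  add_mem' := fun {f g} hf hg => B.alg.add_mem hf hg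
  algebraMap_mem' := fun r => B.alg.algebraMap_mem r

lemma mem_quotAlg (B : IOrd P W act) (π : W →+ Q) (f : Q → Kb) :
    f ∈ quotAlg B π ↔ (fun w => f (π w)) ∈ B.alg := Iff.rfl

/-- A function invariant under translation by `ker π` descends to `Q`. -/
lemma transInv_desc (π : W →+ Q) (hsurj : Function.Surjective π) (G : W → Kb)
    (hG : TransInv {w : W | π w = 0} G) (w : W) :
    G (Function.surjInv hsurj (π w)) = G w := by
  have h1 : π (w - Function.surjInv hsurj (π w)) = 0 := by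
    rw [map_sub, Function.surjInv_eq hsurj, sub_self]
  have h2 := hG (Function.surjInv hsurj (π w)) _ h1
  rw [add_sub_cancel] at h2
  exact h2.symm

/-- The descent of a function along a section of `π`, as a linear map. -/
noncomputable def descLin (π : W →+ Q) (hsurj : Function.Surjective π) :
    (W → Kb) →ₗ[Kb] (Q → Kb) :=
  LinearMap.funLeft Kb Kb (Function.surjInv hsurj)

lemma descLin_apply (π : W →+ Q) (hsurj : Function.Surjective π) (G : W → Kb) (q : Q) :
    descLin π hsurj G q = G (Function.surjInv hsurj q) := rfl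

lemma descLin_comp (π : W →+ Q) (hsurj : Function.Surjective π) (f : Q → Kb) :
    descLin π hsurj (fun w => f (π w)) = f := by
  funext q
  rw [descLin_apply, Function.surjInv_eq hsurj]

variable [Fintype W] [DecidableEq Q]

/-- The kernel of `π` as a finset. -/
def kerFin (π : W →+ Q) : Finset W := Finset.univ.filter fun n => π n = 0

lemma mem_kerFin (π : W →+ Q) (n : W) : n ∈ kerFin π ↔ π n = 0 := by
  simp [kerFin]

/-- The averaging operator `A G (w) = ∑_{n ∈ ker π} G (w + n)`, as a linear map. -/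
noncomputable def avgLin (π : W →+ Q) : (W → Kb) →ₗ[Kb] (W → Kb) where
  toFun G := fun w => ∑ n ∈ kerFin π, G (w + n)
  map_add' G G' := by
    funext w
    simp only [Pi.add_apply, Finset.sum_add_distrib]
  map_smul' c G := by
    funext w
    simp only [Pi.smul_apply, smul_eq_mul, Finset.mul_sum, RingHom.id_apply]

lemma avgLin_apply (π : W →+ Q) (G : W → Kb) (w : W) :
    avgLin π G w = ∑ n ∈ kerFin π, G (w + n) := rfl

/-- The average is invariant under translation by `ker π`. -/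
lemma avgLin_transInv (π : W →+ Q) (G : W → Kb) :
    TransInv {w : W | π w = 0} (avgLin π G) := by
  intro v w hw
  have hw' : π w = 0 := hw
  rw [avgLin_apply, avgLin_apply]
  refine Finset.sum_nbij' (fun n => w + n) (fun n => n - w) ?_ ?_ ?_ ?_ ?_
  · intro n hn
    rw [mem_kerFin] at hn ⊢
    rw [map_add, hw', hn, add_zero]
  · intro n hn
    rw [mem_kerFin] at hn ⊢
    rw [map_sub, hw', hn, sub_zero]
  · intro n _
    simp
  · intro n _
    simp
  · intro n _
    rw [add_assoc]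

/-- The average of an invariant function. -/
lemma avgLin_of_comp (π : W →+ Q) (f : Q → Kb) :
    avgLin π (fun w => f (π w)) = ((kerFin π).card : Kb) • fun w => f (π w) := by
  funext w
  rw [avgLin_apply, Pi.smul_apply, smul_eq_mul]
  have : ∀ n ∈ kerFin π, f (π (w + n)) = f (π w) := by
    intro n hn
    rw [mem_kerFin] at hn
    rw [map_add, hn, add_zero]
  rw [Finset.sum_congr rfl this, Finset.sum_const, nsmul_eq_mul]

/-- Inertia permutes the kernel of `π`. -/
lemma sum_kerFin_act (B : IOrd P W act) (π : W →+ Q) (actQ : GK → Q → Q)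
    (hact : IsIAction P act)
    (hπ : ∀ σ ∈ P.inertiaSubgroupIn ℚ, ∀ w : W, π (act σ w) = actQ σ (π w))
    (σ : GK) (hσ : σ ∈ P.inertiaSubgroupIn ℚ) (h : W → Kb) :
    ∑ n ∈ kerFin π, h (act σ n) = ∑ n ∈ kerFin π, h n := by
  obtain ⟨hadd, hone, hmul⟩ := hact
  have hσi : σ⁻¹ ∈ P.inertiaSubgroupIn ℚ := (P.inertiaSubgroupIn ℚ).inv_mem hσ
  have hzero : ∀ τ ∈ P.inertiaSubgroupIn ℚ, act τ 0 = 0 := by
    intro τ hτ
    have := hadd τ hτ 0 0
    rw [add_zero] at this
    exact left_eq_add.1 this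
  have hker : ∀ τ ∈ P.inertiaSubgroupIn ℚ, ∀ n : W, π n = 0 → π (act τ n) = 0 := by
    intro τ hτ n hn
    rw [hπ τ hτ, hn, ← map_zero π, ← hπ τ hτ, hzero τ hτ, map_zero]
  refine Finset.sum_nbij' (fun n => act σ n) (fun n => act σ⁻¹ n) ?_ ?_ ?_ ?_ ?_
  · intro n hn
    rw [mem_kerFin] at hn ⊢
    exact hker σ hσ n hn
  · intro n hn
    rw [mem_kerFin] at hn ⊢
    exact hker σ⁻¹ hσi n hn
  · intro n _
    show act σ⁻¹ (act σ n) = n
    rw [← hmul σ⁻¹ hσi σ hσ, inv_mul_cancel, hone]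
  · intro n _
    show act σ (act σ⁻¹ n) = n
    rw [← hmul σ hσ σ⁻¹ hσi, mul_inv_cancel, hone]
  · intro n _
    rfl

/-- The average of a function of the order is in the order. -/
lemma avgLin_mem (B : IOrd P W act) (π : W →+ Q) (actQ : GK → Q → Q)
    (hact : IsIAction P act)
    (hπ : ∀ σ ∈ P.inertiaSubgroupIn ℚ, ∀ w : W, π (act σ w) = actQ σ (π w))
    (β : W → Kb) (hβ : β ∈ B.alg) : avgLin π β ∈ B.alg := by
  obtain ⟨m, g, h, hg, hh, hgh⟩ := B.comul β hβ
  have hc : ∀ i, (∑ n ∈ kerFin π, h i n) ∈ inertiaRing P := by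
    intro i
    refine ⟨P.sum_mem fun n _ => B.int _ (hh i) n, fun σ hσ => ?_⟩
    rw [map_sum]
    have : ∀ n ∈ kerFin π, σ (h i n) = h i (act σ n) :=
      fun n _ => (B.equiv _ (hh i) σ hσ n).symm
    rw [Finset.sum_congr rfl this]
    exact sum_kerFin_act B π actQ hact hπ σ hσ (h i)
  have hsum : avgLin π β
      = ∑ i, (⟨∑ n ∈ kerFin π, h i n, hc i⟩ : inertiaRing P) • g i := by
    funext w
    rw [avgLin_apply, Finset.sum_apply]
    have h1 : ∀ n ∈ kerFin π, β (w + n) = ∑ i, g i w * h i n := fun n _ => hgh w n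
    rw [Finset.sum_congr rfl h1, Finset.sum_comm]
    refine Finset.sum_congr rfl fun i _ => ?_
    rw [← Finset.mul_sum, mul_comm]
    rfl
  rw [hsum]
  exact B.alg.sum_mem fun i _ => B.alg.smul_mem (hg i) _

end

/-- **TR3** (with `BasisProp`, block D, as a hypothesis). -/
theorem iOrdQuotProp_of (p : ℕ) (P : ValuationSubring Kb) (hB : BasisProp p P) :
    IOrdQuotProp p P := by
  classical
  intro hp hP W _ _ act B Q _ π actQ hact hsurj hπ
  haveI : Fintype W := Fintype.ofFinite W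
  haveI hpid : IsPrincipalIdealRing (inertiaRing P) :=
    inertiaRing_isPrincipalIdealRing hp.ne_zero hP (unrProp p hp P hP) (dvdProp hp hP)
  obtain ⟨b, hbmem, hli, hbspan⟩ := hB hp hP W act B hact
  -- `B.alg` is the `R'`-span of the basis
  have hset : ∀ F : W → Kb, F ∈ B.alg ↔
      F ∈ (Submodule.span (inertiaRing P) (Set.range b) : Submodule (inertiaRing P) (W → Kb)) := by
    intro F
    constructor
    · intro hF
      obtain ⟨c, hc, rfl⟩ := hbspan F hF
      refine Submodule.sum_mem _ fun i _ => ?_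
      have : c i • b i = (⟨c i, hc i⟩ : inertiaRing P) • b i := rfl
      rw [this]
      exact Submodule.smul_mem _ _ (Submodule.subset_span ⟨i, rfl⟩)
    · intro hF
      have hle : Submodule.span (inertiaRing P) (Set.range b) ≤ Subalgebra.toSubmodule B.alg := by
        refine Submodule.span_le.2 ?_
        rintro _ ⟨i, rfl⟩
        exact hbmem i
      exact hle hF
  have hcl : ComulClosed ((Submodule.span (inertiaRing P) (Set.range b) :
      Submodule (inertiaRing P) (W → Kb)) : Set (W → Kb)) := by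
    have : ((Submodule.span (inertiaRing P) (Set.range b) :
        Submodule (inertiaRing P) (W → Kb)) : Set (W → Kb)) = (B.alg : Set (W → Kb)) := by
      ext F
      exact (hset F).symm
    rw [this]
    exact B.comul
  have key := comulClosed_transInv_subring (inertiaRing P) b hli hcl {w : W | π w = 0}
  refine ⟨{ alg := quotAlg B π, fg := ?_, equiv := ?_, int := ?_, comul := ?_, neg := ?_,
            span := ?_ }, fun f => Iff.rfl⟩
  · -- finitely generated
    haveI : Module.Finite (inertiaRing P) (Subalgebra.toSubmodule B.alg) :=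
      Module.Finite.iff_fg.mpr B.fg
    let Φ : Subalgebra.toSubmodule (quotAlg B π) →ₗ[inertiaRing P]
        Subalgebra.toSubmodule B.alg :=
      { toFun := fun f => ⟨fun w => (f : Q → Kb) (π w), f.2⟩
        map_add' := fun f g => rfl
        map_smul' := fun r f => rfl }
    have hinj : Function.Injective Φ := by
      intro f g hfg
      apply Subtype.ext
      funext q
      obtain ⟨w, rfl⟩ := hsurj q
      exact congrFun (congrArg Subtype.val hfg) w
    exact Module.Finite.iff_fg.mp (Module.Finite.of_injective Φ hinj)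
  · intro f hf σ hσ q
    obtain ⟨w, rfl⟩ := hsurj q
    rw [← hπ σ hσ w]
    exact B.equiv _ hf σ hσ w
  · intro f hf q
    obtain ⟨w, rfl⟩ := hsurj q
    exact B.int _ hf w
  · -- comultiplication
    intro f hf
    have hF : (fun w => f (π w)) ∈ {F : W → Kb |
        F ∈ Submodule.span (inertiaRing P) (Set.range b) ∧ TransInv {w : W | π w = 0} F} := by
      refine ⟨(hset _).1 hf, fun v w hw => ?_⟩
      have hw' : π w = 0 := hw
      show f (π (v + w)) = f (π v)
      rw [map_add, hw', add_zero]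
    obtain ⟨m, G, H, hG, hH, hGH⟩ := key _ hF
    refine ⟨m, fun i => descLin π hsurj (G i), fun i => descLin π hsurj (H i), ?_, ?_, ?_⟩
    · intro i
      show (fun w => descLin π hsurj (G i) (π w)) ∈ B.alg
      have : (fun w => descLin π hsurj (G i) (π w)) = G i :=
        funext (transInv_desc π hsurj (G i) (hG i).2)
      rw [this]
      exact (hset _).2 (hG i).1
    · intro i
      show (fun w => descLin π hsurj (H i) (π w)) ∈ B.alg
      have : (fun w => descLin π hsurj (H i) (π w)) = H i :=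
        funext (transInv_desc π hsurj (H i) (hH i).2)
      rw [this]
      exact (hset _).2 (hH i).1
    · intro q q'
      obtain ⟨w, rfl⟩ := hsurj q
      obtain ⟨w', rfl⟩ := hsurj q'
      rw [← map_add]
      have h1 := hGH w w'
      simp only [descLin_apply, transInv_desc π hsurj _ (hG _).2,
        transInv_desc π hsurj _ (hH _).2]
      exact h1
  · intro f hf
    have := B.neg _ hf
    show (fun w => f (-(π w))) ∈ B.alg
    have e : (fun w => f (-(π w))) = fun w => f (π (-w)) := by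
      funext w
      rw [map_neg]
    rw [e]
    exact this
  · -- span: averaging
    refine top_unique fun f _ => ?_
    have hmap : ∀ β ∈ B.alg, descLin π hsurj (avgLin π β) ∈ quotAlg B π := by
      intro β hβ
      show (fun w => descLin π hsurj (avgLin π β) (π w)) ∈ B.alg
      have : (fun w => descLin π hsurj (avgLin π β) (π w)) = avgLin π β :=
        funext (transInv_desc π hsurj _ (avgLin_transInv π β))
      rw [this]
      exact avgLin_mem B π actQ hact hπ β hβ
    have hle : Submodule.map ((descLin π hsurj).comp (avgLin π))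
        (Submodule.span Kb (B.alg : Set (W → Kb)))
        ≤ Submodule.span Kb (quotAlg B π : Set (Q → Kb)) := by
      rw [Submodule.map_span]
      refine Submodule.span_mono ?_
      rintro _ ⟨β, hβ, rfl⟩
      exact hmap β hβ
    have hF : (fun w => f (π w)) ∈ Submodule.span Kb (B.alg : Set (W → Kb)) := by
      rw [B.span]
      trivial
    have h1 := hle (Submodule.mem_map_of_mem hF)
    rw [LinearMap.comp_apply, avgLin_of_comp, map_smul, descLin_comp] at h1
    have hcard : ((kerFin π).card : Kb) ≠ 0 := by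
      refine Nat.cast_ne_zero.mpr (Finset.card_ne_zero.mpr ⟨0, ?_⟩)
      rw [mem_kerFin, map_zero]
    have h2 := Submodule.smul_mem _ (((kerFin π).card : Kb)⁻¹) h1
    rwa [smul_smul, inv_mul_cancel₀ hcard, one_smul] at h2

/-- **TR3**. -/
theorem iOrdQuotProp (p : ℕ) (P : ValuationSubring Kb) : IOrdQuotProp p P :=
  iOrdQuotProp_of p P (basisProp p P)

end Fermat.Agent.S56.SS
end MergeWrap_S56_W4_C_TR_IOrdQuot

section MergeWrap_S56_W4_C_TR_Main -- from S56/W4/C/TR/Main.lean

set_option autoImplicit false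

namespace Fermat.Agent.S56.SS

/-- **Block TR** modulo `T3Prop` (block D) and the quotient leaf TR3. -/
theorem hopfSideProp_of_T3_quot (p : ℕ) [Fact p.Prime] (hT3 : T3Prop p (Pp p))
    (hQuot : IOrdQuotProp p (Pp p)) : HopfSideProp p :=
  hopfSideProp_of_leaves hT3 (redProp (Pp p)) (iOrdHopfProp p (Pp p)) (iOrdSubProp (Pp p)) hQuot
    (valOrbitProp p (Pp p)) (sharpAbsProp p (Pp p)) (cheapAbsProp p (Pp p))

/-- **Block TR** (Hopf side): a flat tangent module satisfies CHEAP and SHARP. -/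
theorem hopfSideProp (p : ℕ) [Fact p.Prime] : HopfSideProp p :=
  hopfSideProp_of_T3_quot p (t3Prop p (Pp p)) (iOrdQuotProp p (Pp p))

end Fermat.Agent.S56.SS
end MergeWrap_S56_W4_C_TR_Main
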